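import Fermat.Agent.S21.H10_ParBoundSL2
import Fermat.Agent.S24.H9_CombFinal

/-!
# S21, package E2 (final form): `dim parabolicHoms ℂ (Γ₀(N)) ℂ ≤ 2 * genusFormula N`

The orbit-count bound of `H10_ParBoundSL2` combined with the combinatorial genus count
`Fermat.Agent.S24.Comb.h9_genus_count` (package COMB of S24).
-/

set_option autoImplicit false

open Module
open scoped MatrixGroups
open CongruenceSubgroup ModularCurve ModularCurve.Period

namespace Fermat.Agent.S21.E2

/-- (E2) `dim parabolicHoms ℂ (Γ₀(N)) ℂ ≤ 2 * genusFormula N`: exactly the hypothesis `hE2` of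
`Fermat.Agent.S21.result_of_inputs`. -/
theorem finrank_parabolicHoms_le_two_genus (N : ℕ) [NeZero N] :
    (finrank ℂ (parabolicHoms ℂ (Gamma0 N) ℂ) : ℚ) ≤ 2 * genusFormula N :=
  finrank_parabolicHoms_le N (Fermat.Agent.S24.Comb.h9_genus_count N)

end Fermat.Agent.S21.E2
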