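import Mathlib

/-!
# S21, (MP): the maximum principle on the modular curve

Let `C : ℍ → ℂ` be holomorphic, with `Re C` invariant under `Γ₀(N)`, such that for every
`δ ∈ SL(2, ℤ)` the function `w ↦ C (δ • w)` is `N`-periodic and has a limit at `i∞`.
Then `C` is constant.

Proof: `E = exp ∘ C` has `Γ₀(N)`-invariant absolute value; each `E ∘ δ` is a holomorphic
function `Φ_δ` of `q = exp (2 π i w / N)` on the open unit disc.  Every point of `ℍ` is of the
form `δ • w` with `w` in the standard fundamental domain, where `|q| ≤ r < 1`, and `|Φ_δ|`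
only depends on the coset of `δ` modulo `Γ₀(N)`; so `sup |E|` is the maximum of finitely many
continuous functions on the closed disc of radius `r`, attained at an interior point of the
unit disc for some `Φ_δ`.  By the maximum modulus principle `Φ_δ` is constant.
-/

set_option autoImplicit false

namespace Fermat.Agent.S21.MP

open UpperHalfPlane CongruenceSubgroup Filter Topology Function Complex
open scoped MatrixGroups Manifold Real

local notation "𝕢" => Periodic.qParam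

/-- The translate of `exp ∘ C` by `δ`. -/
noncomputable def expT (C : ℍ → ℂ) (δ : SL(2, ℤ)) : ℍ → ℂ := fun w => Complex.exp (C (δ • w))

lemma mdiff_comp_smul {C : ℍ → ℂ} (hC : MDiff C) (δ : SL(2, ℤ)) :
    MDiff (fun w : ℍ => C (δ • w)) := by
  have h1 : MDiff (fun τ : ℍ => (δ : GL (Fin 2) ℝ) • τ) :=
    UpperHalfPlane.mdifferentiable_smul (by simp)
  exact hC.comp h1

lemma mdiff_cexp {C : ℍ → ℂ} (hC : MDiff C) : MDiff (fun w : ℍ => Complex.exp (C w)) := by
  rw [UpperHalfPlane.mdifferentiable_iff] at hC ⊢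
  exact fun z hz => ((hC z hz).cexp)

lemma mdiff_expT {C : ℍ → ℂ} (hC : MDiff C) (δ : SL(2, ℤ)) : MDiff (expT C δ) :=
  mdiff_cexp (mdiff_comp_smul hC δ)

lemma periodic_of_vadd {f : ℍ → ℂ} {h : ℝ} (hf : ∀ w : ℍ, f (h +ᵥ w) = f w) :
    Periodic (f ∘ ofComplex) h := by
  intro w
  by_cases hw : 0 < im w
  · have : 0 < im (w + h) := by simp [hw]
    simp only [comp_apply, ofComplex_apply_of_im_pos this, ofComplex_apply_of_im_pos hw]
    rw [← hf ⟨w, hw⟩]
    congr 1
    ext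
    simp [add_comm]
  · have hw' : im w ≤ 0 := not_lt.mp hw
    have : im (w + h) ≤ 0 := by simpa using hw'
    simp [ofComplex_apply_of_im_nonpos this, ofComplex_apply_of_im_nonpos hw']


/-- A holomorphic function on `ℍ` whose exponential is constant is constant. -/
lemma const_of_exp_const {C : ℍ → ℂ} (hC : MDiff C) {c : ℂ}
    (hc : ∀ z : ℍ, Complex.exp (C z) = c) : ∀ z : ℍ, C z = C UpperHalfPlane.I := by
  rw [UpperHalfPlane.mdifferentiable_iff] at hC
  have hU : IsOpen {z : ℂ | 0 < z.im} := isOpen_lt continuous_const Complex.continuous_im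
  have hconv : Convex ℝ {z : ℂ | 0 < z.im} := convex_halfSpace_im_gt 0
  have hderiv : Set.EqOn (deriv (C ∘ ofComplex)) 0 {z : ℂ | 0 < z.im} := by
    intro z hz
    have hd : DifferentiableAt ℂ (C ∘ ofComplex) z :=
      (hC z hz).differentiableAt (hU.mem_nhds hz)
    have h1 : HasDerivAt (fun w => Complex.exp ((C ∘ ofComplex) w))
        (Complex.exp ((C ∘ ofComplex) z) * deriv (C ∘ ofComplex) z) z :=
      hd.hasDerivAt.cexp
    have h2 : (fun w => Complex.exp ((C ∘ ofComplex) w)) =ᶠ[𝓝 z] fun _ => c := by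
      filter_upwards [hU.mem_nhds hz] with w hw
      simp only [comp_apply, ofComplex_apply_of_im_pos hw]
      exact hc _
    have h3 : HasDerivAt (fun w => Complex.exp ((C ∘ ofComplex) w)) 0 z :=
      (hasDerivAt_const z c).congr_of_eventuallyEq h2
    have h4 := h1.unique h3
    simpa [Complex.exp_ne_zero] using h4
  intro z
  have h5 := hU.is_const_of_deriv_eq_zero hconv.isPreconnected hC hderiv
    (x := (z : ℂ)) (y := (UpperHalfPlane.I : ℂ)) z.im_pos UpperHalfPlane.I.im_pos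
  have h6 : (C ∘ ofComplex) (UpperHalfPlane.I : ℂ) = C UpperHalfPlane.I := by
    simp only [comp_apply]
    rw [ofComplex_apply]
  have h7 : (C ∘ ofComplex) (z : ℂ) = C z := by
    simp only [comp_apply]
    rw [ofComplex_apply]
  rw [← h6, ← h7]
  exact h5

/-- **Maximum principle on the modular curve.** -/
theorem const_of_re_invariant (N : ℕ) [NeZero N] (C : ℍ → ℂ) (hC : MDiff C)
    (hinv : ∀ γ ∈ Gamma0 N, ∀ z : ℍ, (C (γ • z)).re = (C z).re)
    (hper : ∀ (δ : SL(2, ℤ)) (w : ℍ), C (δ • ((N : ℝ) +ᵥ w)) = C (δ • w))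
    (hlim : ∀ δ : SL(2, ℤ), ∃ L : ℂ, Tendsto (fun w : ℍ => C (δ • w)) atImInfty (𝓝 L)) :
    ∃ c : ℂ, ∀ z, C z = c := by
  have hN : (0 : ℝ) < N := Nat.cast_pos.mpr (NeZero.pos N)
  -- the cusp functions
  set Φ : SL(2, ℤ) → ℂ → ℂ := fun δ => cuspFunction N (expT C δ) with hΦ
  have hperE : ∀ δ, Periodic (expT C δ ∘ ofComplex) N := fun δ =>
    periodic_of_vadd (fun w => by simp only [expT]; rw [hper δ w])
  have hbdd : ∀ δ, IsBoundedAtImInfty (expT C δ) := by
    intro δ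
    obtain ⟨L, hL⟩ := hlim δ
    have : Tendsto (expT C δ) atImInfty (𝓝 (Complex.exp L)) :=
      (Complex.continuous_exp.tendsto L).comp hL
    exact this.isBigO_one ℝ
  have hΦdiff : ∀ δ, DifferentiableOn ℂ (Φ δ) (Metric.ball 0 1) := fun δ =>
    differentiableOn_cuspFunction_ball hN (hperE δ) (mdiff_expT hC δ) (hbdd δ)
  have hΦq : ∀ δ (w : ℍ), Φ δ (𝕢 N w) = expT C δ w := fun δ w =>
    eq_cuspFunction w hN.ne' (hperE δ)
  -- the radius
  set r : ℝ := Real.exp (-2 * π * (1 / 2) / N) with hr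
  have hr1 : r < 1 := by
    rw [hr]
    have : -2 * π * (1 / 2) / N < 0 := by
      apply div_neg_of_neg_of_pos _ hN
      nlinarith [Real.pi_pos]
    calc Real.exp (-2 * π * (1 / 2) / N) < Real.exp 0 := Real.exp_lt_exp.mpr this
      _ = 1 := Real.exp_zero
  have hr0 : 0 ≤ r := (Real.exp_pos _).le
  have hsub : Metric.closedBall (0 : ℂ) r ⊆ Metric.ball 0 1 :=
    Metric.closedBall_subset_ball hr1
  -- maxima on the closed ball
  have hcont : ∀ δ, ContinuousOn (fun q => ‖Φ δ q‖) (Metric.closedBall 0 r) := fun δ =>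
    ((hΦdiff δ).continuousOn.mono hsub).norm
  have hex : ∀ δ, ∃ q ∈ Metric.closedBall (0 : ℂ) r,
      ∀ q' ∈ Metric.closedBall (0 : ℂ) r, ‖Φ δ q'‖ ≤ ‖Φ δ q‖ := fun δ => by
    obtain ⟨q, hq, hmax⟩ := (isCompact_closedBall (0 : ℂ) r).exists_isMaxOn
      ⟨0, Metric.mem_closedBall_self hr0⟩ (hcont δ)
    exact ⟨q, hq, fun q' hq' => hmax hq'⟩
  choose q0 hq0 hq0max using hex
  -- finitely many cosets
  set rep : SL(2, ℤ) ⧸ Gamma0 N → SL(2, ℤ) := fun x => (Quotient.out x)⁻¹ with hrep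
  obtain ⟨x0, hx0⟩ := Finite.exists_max (fun x : SL(2, ℤ) ⧸ Gamma0 N => ‖Φ (rep x) (q0 (rep x))‖)
  set δ0 := rep x0 with hδ0
  -- the bound on `ℍ`
  have hbound : ∀ z : ℍ, ‖Complex.exp (C z)‖ ≤ ‖Φ δ0 (q0 δ0)‖ := by
    intro z
    obtain ⟨g, hg⟩ := ModularGroup.exists_smul_mem_fd z
    set w := g • z with hw
    set x : SL(2, ℤ) ⧸ Gamma0 N := QuotientGroup.mk g with hx
    have hγ : g⁻¹ * Quotient.out x ∈ Gamma0 N := by
      have := QuotientGroup.mk_out_eq_mul (Gamma0 N) g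
      obtain ⟨h, hh⟩ := this
      rw [hx, hh]
      simp
    have hz : z = (g⁻¹ * Quotient.out x) • (rep x • w) := by
      rw [hrep, hw, ← mul_smul, ← mul_smul]
      simp
    have h1 : ‖Complex.exp (C z)‖ = ‖expT C (rep x) w‖ := by
      simp only [expT, Complex.norm_exp]
      conv_lhs => rw [hz]
      rw [hinv _ hγ]
    have him : (1 / 2 : ℝ) ≤ w.im := by
      have h3 := ModularGroup.three_le_four_mul_im_sq_of_mem_fd hg
      nlinarith [w.im_pos]
    have hq : 𝕢 N w ∈ Metric.closedBall (0 : ℂ) r := by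
      rw [mem_closedBall_zero_iff, Periodic.norm_qParam, hr, Real.exp_le_exp]
      apply div_le_div_of_nonneg_right _ hN.le
      have : (w : ℂ).im = w.im := rfl
      rw [this]
      nlinarith [Real.pi_pos]
    calc ‖Complex.exp (C z)‖ = ‖Φ (rep x) (𝕢 N w)‖ := by rw [h1, hΦq]
      _ ≤ ‖Φ (rep x) (q0 (rep x))‖ := hq0max _ _ hq
      _ ≤ ‖Φ δ0 (q0 δ0)‖ := hx0 x
  -- the bound on the disc
  have hdisc : ∀ q ∈ Metric.ball (0 : ℂ) 1, ‖Φ δ0 q‖ ≤ ‖Φ δ0 (q0 δ0)‖ := by
    have hne : ∀ q ∈ Metric.ball (0 : ℂ) 1, q ≠ 0 → ‖Φ δ0 q‖ ≤ ‖Φ δ0 (q0 δ0)‖ := by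
      intro q hq hq'
      have hq1 : ‖q‖ < 1 := mem_ball_zero_iff.mp hq
      have him := Periodic.im_invQParam_pos_of_norm_lt_one hN hq1 hq'
      have h1 : Φ δ0 q = expT C δ0 ⟨_, him⟩ := by
        rw [← hΦq δ0 ⟨_, him⟩]
        congr 1
        exact (Periodic.qParam_right_inv hN.ne' hq').symm
      rw [h1]
      exact hbound _
    intro q hq
    by_cases hq' : q = 0
    · subst hq'
      have hcont0 : ContinuousAt (Φ δ0) 0 :=
        ((hΦdiff δ0).differentiableAt (Metric.ball_mem_nhds 0 one_pos)).continuousAt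
      have ht : Tendsto (fun q => ‖Φ δ0 q‖) (𝓝[≠] (0 : ℂ)) (𝓝 ‖Φ δ0 0‖) :=
        (hcont0.norm.tendsto).mono_left nhdsWithin_le_nhds
      refine le_of_tendsto ht ?_
      have : Metric.ball (0 : ℂ) 1 ∈ 𝓝[≠] (0 : ℂ) :=
        mem_nhdsWithin_of_mem_nhds (Metric.ball_mem_nhds 0 one_pos)
      filter_upwards [this, self_mem_nhdsWithin] with q hq hq'
      exact hne q hq hq'
    · exact hne q hq hq'
  -- maximum modulus principle
  have hconst := Complex.eqOn_of_isPreconnected_of_isMaxOn_norm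
    (convex_ball (0 : ℂ) 1).isPreconnected Metric.isOpen_ball (hΦdiff δ0) (hsub (hq0 δ0))
    (fun q hq => hdisc q hq)
  have hE : ∀ z : ℍ, Complex.exp (C z) = Φ δ0 (q0 δ0) := by
    intro z
    have h1 : z = δ0 • (δ0⁻¹ • z) := by rw [← mul_smul]; simp
    have h2 := hΦq δ0 (δ0⁻¹ • z)
    simp only [expT] at h2
    rw [← h1] at h2
    rw [← h2]
    exact hconst (mem_ball_zero_iff.mpr (Periodic.norm_qParam_lt_one hN (δ0⁻¹ • z).im_pos))
  exact ⟨C UpperHalfPlane.I, const_of_exp_const hC hE⟩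


/-- **Maximum principle, harmonic form.** If `A`, `B` are holomorphic on `ℍ`, the harmonic
function `A + conj B` is invariant under `Γ₀(N)`, and all translates of `A` and `B` by
`SL(2, ℤ)` are `N`-periodic with a limit at `i∞`, then `A` and `B` are constant. -/
theorem const_of_add_conj_invariant (N : ℕ) [NeZero N] (A B : ℍ → ℂ) (hA : MDiff A)
    (hB : MDiff B)
    (hinv : ∀ γ ∈ Gamma0 N, ∀ z : ℍ,
      A (γ • z) + (starRingEnd ℂ) (B (γ • z)) = A z + (starRingEnd ℂ) (B z))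
    (hperA : ∀ (δ : SL(2, ℤ)) (w : ℍ), A (δ • ((N : ℝ) +ᵥ w)) = A (δ • w))
    (hperB : ∀ (δ : SL(2, ℤ)) (w : ℍ), B (δ • ((N : ℝ) +ᵥ w)) = B (δ • w))
    (hlimA : ∀ δ : SL(2, ℤ), ∃ L : ℂ, Tendsto (fun w : ℍ => A (δ • w)) atImInfty (𝓝 L))
    (hlimB : ∀ δ : SL(2, ℤ), ∃ L : ℂ, Tendsto (fun w : ℍ => B (δ • w)) atImInfty (𝓝 L)) :
    (∃ a : ℂ, ∀ z, A z = a) ∧ (∃ b : ℂ, ∀ z, B z = b) := by
  -- `C₁ = A + B`
  obtain ⟨c₁, hc₁⟩ := const_of_re_invariant N (fun z => A z + B z) (hA.add hB)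
    (fun γ hγ z => by
      have h := congrArg Complex.re (hinv γ hγ z)
      simpa using h)
    (fun δ w => by simp only [hperA, hperB])
    (fun δ => by
      obtain ⟨L₁, hL₁⟩ := hlimA δ
      obtain ⟨L₂, hL₂⟩ := hlimB δ
      exact ⟨L₁ + L₂, hL₁.add hL₂⟩)
  -- `C₂ = -i (A - B)`
  obtain ⟨c₂, hc₂⟩ := const_of_re_invariant N (fun z => -Complex.I * (A z - B z))
    ((mdifferentiable_const (c := -Complex.I)).mul (hA.sub hB))
    (fun γ hγ z => by
      have h := congrArg Complex.im (hinv γ hγ z)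
      simp only [Complex.add_im, Complex.conj_im] at h
      simp only [neg_mul, Complex.neg_re, Complex.mul_re, Complex.I_re, zero_mul,
        Complex.I_im, one_mul, zero_sub, neg_neg, Complex.sub_im]
      linarith)
    (fun δ w => by simp only [hperA, hperB])
    (fun δ => by
      obtain ⟨L₁, hL₁⟩ := hlimA δ
      obtain ⟨L₂, hL₂⟩ := hlimB δ
      exact ⟨-Complex.I * (L₁ - L₂), (hL₁.sub hL₂).const_mul _⟩)
  have hAB : ∀ z, A z - B z = Complex.I * c₂ := by
    intro z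
    have h := hc₂ z
    have : Complex.I * (-Complex.I * (A z - B z)) = A z - B z := by
      rw [← mul_assoc, mul_neg, Complex.I_mul_I]; ring
    rw [← this, h]
  refine ⟨⟨(c₁ + Complex.I * c₂) / 2, fun z => ?_⟩, ⟨(c₁ - Complex.I * c₂) / 2, fun z => ?_⟩⟩
  · rw [← hc₁ z, ← hAB z]; ring
  · rw [← hc₁ z, ← hAB z]; ring

end Fermat.Agent.S21.MP
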