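import Fermat.Agent.S21.H5_Prim
import Fermat.Agent.S21.H11_MaxPrinciple

/-!
# S21, (E1): the period map `periodHomPair` is injective

If `periodHomPair N (f, g) = 0` then, with `F`, `G` the normalised primitives of `f`, `g`, the
harmonic function `u = (F + G) + (F - G) ∘ J`, `J z = -conj z`, is invariant under `Γ₀(N)`;
by the maximum principle (`MP.const_of_add_conj_invariant`) the holomorphic functions `F + G`
and `conj ∘ (F - G) ∘ J` are constant, so `f + g = 0` and `f - g = 0`.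
-/

set_option autoImplicit false
set_option linter.unusedSimpArgs false

namespace Fermat.Agent.S21.Inj

open UpperHalfPlane CongruenceSubgroup Filter Topology Function Complex
open ModularCurve ModularCurve.Period
open Fermat.Agent.S21.E1
open scoped MatrixGroups Manifold Real ComplexConjugate

variable {N : ℕ}

/-! ### The reflection `J` and the involution `jConjSL` -/

lemma J_mul_mapGL (γ : SL(2, ℤ)) :
    J * (Matrix.SpecialLinearGroup.mapGL ℝ γ)
      = (Matrix.SpecialLinearGroup.mapGL ℝ (jConjSL γ)) * J := by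
  have h00 : ((jConjSL γ : SL(2, ℤ)) : Matrix (Fin 2) (Fin 2) ℤ) 0 0 = γ 0 0 := by
    rw [jConjSL_coe, jConjMat_apply_zero_zero]
  have h01 : ((jConjSL γ : SL(2, ℤ)) : Matrix (Fin 2) (Fin 2) ℤ) 0 1 = -γ 0 1 := by
    rw [jConjSL_coe, jConjMat_apply_zero_one]
  have h10 : ((jConjSL γ : SL(2, ℤ)) : Matrix (Fin 2) (Fin 2) ℤ) 1 0 = -γ 1 0 := by
    rw [jConjSL_coe, jConjMat_apply_one_zero]
  have h11 : ((jConjSL γ : SL(2, ℤ)) : Matrix (Fin 2) (Fin 2) ℤ) 1 1 = γ 1 1 := by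
    rw [jConjSL_coe, jConjMat_apply_one_one]
  ext i j
  fin_cases i <;> fin_cases j <;>
    simp [J, Matrix.mul_apply, Fin.sum_univ_two, h00, h01, h10, h11]

lemma J_smul_smul (γ : SL(2, ℤ)) (z : ℍ) : J • (γ • z) = jConjSL γ • (J • z) := by
  show J • ((Matrix.SpecialLinearGroup.mapGL ℝ γ) • z)
    = (Matrix.SpecialLinearGroup.mapGL ℝ (jConjSL γ)) • (J • z)
  rw [← mul_smul, ← mul_smul, J_mul_mapGL]

lemma J_smul_J_smul (z : ℍ) : J • (J • z) = z := by
  rw [← mul_smul, ← sq, J_sq, one_smul]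

lemma im_J_smul (z : ℍ) : (J • z).im = z.im := by
  have h := congrArg Complex.im (coe_J_smul z)
  simpa using h

lemma tendsto_J_smul : Tendsto (fun z : ℍ => J • z) atImInfty atImInfty := by
  rw [atImInfty]
  refine tendsto_comap_iff.mpr ?_
  have : (UpperHalfPlane.im ∘ fun z : ℍ => J • z) = UpperHalfPlane.im := funext im_J_smul
  rw [this]
  exact tendsto_comap

lemma J_smul_vadd (x : ℝ) (z : ℍ) : J • (x +ᵥ z) = (-x) +ᵥ (J • z) := by
  ext
  rw [coe_J_smul, coe_vadd, coe_vadd, coe_J_smul]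
  simp
  ring

lemma tendsto_vadd (x : ℝ) : Tendsto (fun z : ℍ => x +ᵥ z) atImInfty atImInfty := by
  rw [atImInfty]
  refine tendsto_comap_iff.mpr ?_
  have : (UpperHalfPlane.im ∘ fun z : ℍ => x +ᵥ z) = UpperHalfPlane.im := by
    funext z
    simp
  rw [this]
  exact tendsto_comap


/-! ### Periodicity of the translates of an equivariant primitive -/

lemma conj_T_pow_mem_Gamma0 (N : ℕ) (δ : SL(2, ℤ)) :
    δ * ModularGroup.T ^ (N : ℤ) * δ⁻¹ ∈ Gamma0 N := by
  have h1 : ModularGroup.T ^ (N : ℤ) ∈ CongruenceSubgroup.Gamma N := by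
    simpa using ModularGroup_T_pow_mem_Gamma (N : ℤ) (N : ℤ) dvd_rfl
  have h2 : δ * ModularGroup.T ^ (N : ℤ) * δ⁻¹ ∈ CongruenceSubgroup.Gamma N :=
    (Gamma_normal N).conj_mem _ h1 δ
  rw [Gamma_mem] at h2
  rw [Gamma0_mem]
  exact h2.2.2.1

/-- The translates of an equivariant primitive with limits at the cusps are `N`-periodic. -/
lemma periodic_of_equivariant {F : ℍ → ℂ} (hF : IsEquivariantPrimitive (Gamma0 N) F)
    (hlim : ∀ δ : SL(2, ℤ), ∃ L : ℂ, Tendsto (fun w : ℍ => F (δ • w)) atImInfty (𝓝 L))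
    (δ : SL(2, ℤ)) (w : ℍ) : F (δ • ((N : ℝ) +ᵥ w)) = F (δ • w) := by
  obtain ⟨c, hc⟩ := hF ⟨_, conj_T_pow_mem_Gamma0 N δ⟩
  obtain ⟨L, hL⟩ := hlim δ
  have hkey : ∀ w : ℍ, F (δ • ((N : ℝ) +ᵥ w)) - F (δ • w) = c := by
    intro w
    have h := hc (δ • w)
    have e : (δ * ModularGroup.T ^ (N : ℤ) * δ⁻¹) • (δ • w) = δ • ((N : ℝ) +ᵥ w) := by
      rw [← mul_smul, inv_mul_cancel_right, mul_smul, modular_T_zpow_smul]
      simp
    rw [← e]
    exact h
  have h1 : Tendsto (fun w : ℍ => F (δ • ((N : ℝ) +ᵥ w)) - F (δ • w)) atImInfty (𝓝 (L - L)) :=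
    (hL.comp (tendsto_vadd (N : ℝ))).sub hL
  have h2 : Tendsto (fun w : ℍ => F (δ • ((N : ℝ) +ᵥ w)) - F (δ • w)) atImInfty (𝓝 c) := by
    simp only [hkey]
    exact tendsto_const_nhds
  have h3 : c = L - L := tendsto_nhds_unique h2 h1
  have h4 := hkey w
  rw [h3, sub_self] at h4
  exact sub_eq_zero.mp h4

lemma periodic_of_equivariant' {F : ℍ → ℂ} (hF : IsEquivariantPrimitive (Gamma0 N) F)
    (hlim : ∀ δ : SL(2, ℤ), ∃ L : ℂ, Tendsto (fun w : ℍ => F (δ • w)) atImInfty (𝓝 L))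
    (δ : SL(2, ℤ)) (w : ℍ) : F (δ • ((-(N : ℝ)) +ᵥ w)) = F (δ • w) := by
  have h := periodic_of_equivariant hF hlim δ ((-(N : ℝ)) +ᵥ w)
  rw [← h]
  congr 2
  ext
  simp

/-! ### Holomorphy -/

lemma mdiff_of_hasDerivAt {F : ℍ → ℂ} {f : ℍ → ℂ}
    (h : ∀ τ : ℍ, HasDerivAt (F ∘ ofComplex) (f τ) ↑τ) : MDiff F := by
  rw [UpperHalfPlane.mdifferentiable_iff]
  intro z hz
  exact (h ⟨z, hz⟩).differentiableAt.differentiableWithinAt

/-- If `H` is holomorphic on `ℍ` then so is `z ↦ conj (H (-conj z))`. -/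
lemma mdiff_conj_J {H : ℍ → ℂ} (hH : MDiff H) : MDiff (fun z : ℍ => conj (H (J • z))) := by
  rw [UpperHalfPlane.mdifferentiable_iff] at hH ⊢
  have hU : IsOpen {z : ℂ | 0 < z.im} := isOpen_lt continuous_const Complex.continuous_im
  intro z hz
  have hz' : 0 < (-conj z).im := by simpa using hz
  -- `K v = (H ∘ ofComplex) (-v)` is differentiable at `conj z`
  have hK : DifferentiableAt ℂ (fun v : ℂ => (H ∘ ofComplex) (-v)) (conj z) := by
    have h1 : DifferentiableAt ℂ (H ∘ ofComplex) (-conj z) :=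
      (hH _ hz').differentiableAt (hU.mem_nhds hz')
    exact h1.comp (conj z) differentiableAt_id.neg
  have h2 := hK.conj_conj
  rw [Complex.conj_conj] at h2
  refine (h2.congr_of_eventuallyEq ?_).differentiableWithinAt
  filter_upwards [hU.mem_nhds hz] with w hw
  simp only [comp_apply, ofComplex_apply_of_im_pos hw]
  congr 2
  rw [J_smul]


/-! ### Injectivity -/

lemma eq_zero_of_hasDerivAt_const {K : ℂ → ℂ} {a d z : ℂ} (hK : ∀ w, K w = a)
    (hd : HasDerivAt K d z) : d = 0 := by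
  have h1 : K = fun _ => a := funext hK
  rw [h1] at hd
  exact hd.unique (hasDerivAt_const z a)

/-- **E1.** The period map `periodHomPair N` is injective. -/
theorem periodHomPair_injective (N : ℕ) [NeZero N] :
    Function.Injective (ModularCurve.periodHomPair N) := by
  rw [injective_iff_map_eq_zero]
  rintro ⟨f, g⟩ hfg
  have hFp := hasEquivariantPrimitive_prim f
  have hGp := hasEquivariantPrimitive_prim g
  have hF : MDiff (prim f) := mdiff_of_hasDerivAt hFp.1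
  have hG : MDiff (prim g) := mdiff_of_hasDerivAt hGp.1
  have hperF := periodic_of_equivariant hFp.2.2.1 hFp.2.2.2
  have hperG := periodic_of_equivariant hGp.2.2.1 hGp.2.2.2
  have hperF' := periodic_of_equivariant' hFp.2.2.1 hFp.2.2.2
  have hperG' := periodic_of_equivariant' hGp.2.2.1 hGp.2.2.2
  have hA : MDiff (fun z : ℍ => prim f z + prim g z) := hF.add hG
  have hB : MDiff (fun z : ℍ => conj (prim f (J • z) - prim g (J • z))) :=
    mdiff_conj_J (H := fun z => prim f z - prim g z) (hF.sub hG)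
  have hinv : ∀ γ ∈ Gamma0 N, ∀ z : ℍ,
      (prim f (γ • z) + prim g (γ • z))
          + conj (conj (prim f (J • (γ • z)) - prim g (J • (γ • z))))
        = (prim f z + prim g z) + conj (conj (prim f (J • z) - prim g (J • z))) := by
    intro γ hγ z
    rw [Complex.conj_conj, Complex.conj_conj, J_smul_smul]
    have h1 := prim_smul_sub f ⟨γ, hγ⟩ z
    have h2 := prim_smul_sub g ⟨γ, hγ⟩ z
    have h3 := prim_smul_sub f (jConjGamma0 N ⟨γ, hγ⟩) (J • z)
    have h4 := prim_smul_sub g (jConjGamma0 N ⟨γ, hγ⟩) (J • z)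
    have h5 := periodHomPair_apply N f g ⟨γ, hγ⟩
    rw [hfg] at h5
    simp only [AddMonoidHom.zero_apply] at h5
    simp only [jConjGamma0_coe] at h3 h4
    linear_combination h1 + h2 + h3 - h4 - h5
  have hperA : ∀ (δ : SL(2, ℤ)) (w : ℍ),
      prim f (δ • ((N : ℝ) +ᵥ w)) + prim g (δ • ((N : ℝ) +ᵥ w))
        = prim f (δ • w) + prim g (δ • w) := fun δ w => by
    rw [hperF, hperG]
  have hperB : ∀ (δ : SL(2, ℤ)) (w : ℍ),
      conj (prim f (J • (δ • ((N : ℝ) +ᵥ w))) - prim g (J • (δ • ((N : ℝ) +ᵥ w))))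
        = conj (prim f (J • (δ • w)) - prim g (J • (δ • w))) := fun δ w => by
    rw [J_smul_smul, J_smul_smul, J_smul_vadd, hperF', hperG']
  have hlimA : ∀ δ : SL(2, ℤ), ∃ L : ℂ,
      Tendsto (fun w : ℍ => prim f (δ • w) + prim g (δ • w)) atImInfty (𝓝 L) := fun δ => by
    obtain ⟨L₁, hL₁⟩ := hFp.2.2.2 δ
    obtain ⟨L₂, hL₂⟩ := hGp.2.2.2 δ
    exact ⟨L₁ + L₂, hL₁.add hL₂⟩
  have hlimB : ∀ δ : SL(2, ℤ), ∃ L : ℂ,
      Tendsto (fun w : ℍ => conj (prim f (J • (δ • w)) - prim g (J • (δ • w))))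
        atImInfty (𝓝 L) := fun δ => by
    obtain ⟨L₁, hL₁⟩ := hFp.2.2.2 (jConjSL δ)
    obtain ⟨L₂, hL₂⟩ := hGp.2.2.2 (jConjSL δ)
    refine ⟨conj (L₁ - L₂), ?_⟩
    have h1 := (hL₁.comp tendsto_J_smul).sub (hL₂.comp tendsto_J_smul)
    have h2 := (Complex.continuous_conj.tendsto (L₁ - L₂)).comp h1
    refine h2.congr fun w => ?_
    simp only [comp_apply, J_smul_smul]
  obtain ⟨⟨a, ha⟩, ⟨b, hb⟩⟩ := MP.const_of_add_conj_invariant N
    (fun z : ℍ => prim f z + prim g z)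
    (fun z : ℍ => conj (prim f (J • z) - prim g (J • z))) hA hB hinv hperA hperB hlimA hlimB
  -- `f + g = 0`
  have hsum : ∀ τ : ℍ, f τ + g τ = 0 := by
    intro τ
    have hd : HasDerivAt (fun w : ℂ => (prim f ∘ ofComplex) w + (prim g ∘ ofComplex) w)
        (f τ + g τ) ↑τ := (hFp.1 τ).add (hGp.1 τ)
    exact eq_zero_of_hasDerivAt_const (a := a) (fun w => ha (ofComplex w)) hd
  -- `f - g = 0`
  have hdiff : ∀ τ : ℍ, f τ - g τ = 0 := by
    intro τ
    have hb' : ∀ z : ℍ, prim f z - prim g z = conj b := by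
      intro z
      have h := hb (J • z)
      simp only [J_smul_J_smul] at h
      rw [← h, Complex.conj_conj]
    have hd : HasDerivAt (fun w : ℂ => (prim f ∘ ofComplex) w - (prim g ∘ ofComplex) w)
        (f τ - g τ) ↑τ := (hFp.1 τ).sub (hGp.1 τ)
    exact eq_zero_of_hasDerivAt_const (a := conj b) (fun w => hb' (ofComplex w)) hd
  have hf0 : ∀ τ : ℍ, f τ = 0 := fun τ => by
    have h1 := hsum τ
    have h2 := hdiff τ
    linear_combination (1 / 2 : ℂ) * h1 + (1 / 2 : ℂ) * h2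
  have hg0 : ∀ τ : ℍ, g τ = 0 := fun τ => by
    have h1 := hsum τ
    have h2 := hdiff τ
    linear_combination (1 / 2 : ℂ) * h1 - (1 / 2 : ℂ) * h2
  refine Prod.ext ?_ ?_
  · exact DFunLike.ext _ _ hf0
  · exact DFunLike.ext _ _ hg0

end Fermat.Agent.S21.Inj
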