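import Fermat.Agent.S23.H19_DescentForms

/-!
# S21 [FD]: `S₂(Γ₀(N))` is finite dimensional (owner: helper22)

The truncated `q`-expansion `S_k(Γ₀(N)) → ℂ^(B+1)` (`B` the Sturm bound) is an injective linear
map (`Fermat.Agent.S23.D.truncQ_injective`, helper19), so `S_k(Γ₀(N))` is finite dimensional.
-/

set_option autoImplicit false

namespace Fermat.Agent.S21

open CongruenceSubgroup

/-- `S_k(Γ₀(N))` is finite dimensional, for every weight `k`. -/
theorem finiteDimensional_cuspForm_weight (N : ℕ) [NeZero N] (k : ℤ) :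
    FiniteDimensional ℂ (CuspForm (Gamma0 N) k) :=
  FiniteDimensional.of_injective (Fermat.Agent.S23.D.truncQ N k)
    (Fermat.Agent.S23.D.truncQ_injective N k)

/-- `S₂(Γ₀(N))` is finite dimensional. -/
theorem finiteDimensional_cuspForm (N : ℕ) [NeZero N] :
    FiniteDimensional ℂ (CuspForm (CongruenceSubgroup.Gamma0 N) 2) :=
  finiteDimensional_cuspForm_weight N 2

/-- The dimension of `S_k(Γ₀(N))` is at most the Sturm bound plus one. -/
theorem finrank_cuspForm_le_sturm (N : ℕ) [NeZero N] (k : ℤ) :
    Module.finrank ℂ (CuspForm (Gamma0 N) k) ≤ Fermat.Agent.S23.D.sturmB N k + 1 := by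
  have h := LinearMap.finrank_le_finrank_of_injective (Fermat.Agent.S23.D.truncQ_injective N k)
  simpa using h

end Fermat.Agent.S21
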