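import Mathlib
import Fermat.Prelude.Def_ModularCurve_PeriodHomPair

/-!
# S21 [E3]: periods of cusp forms vanish on parabolic elements (helper22)

* `exists_smul_eq_vadd`: an element `γ` of `SL(2, ℤ)` with `trace ^ 2 = 4` is conjugate, as a
  transformation of the upper half plane, to a translation: `γ • (δ • z) = δ • (n +ᵥ z)`.
* `isParabolicHom_periodHom`: the period homomorphism of an equivariant primitive which has a
  limit at every cusp is a parabolic homomorphism.
* `periodMap_mem_parabolicHoms`, `range_periodHomPair_le`: the prelude period maps take values in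
  the parabolic homomorphisms (unconditionally).
-/

set_option autoImplicit false

namespace Fermat.Agent.S21.H22

open UpperHalfPlane CongruenceSubgroup Filter Topology ModularCurve ModularCurve.Period
open scoped MatrixGroups

/-- A trace `±2` element of `SL(2, ℤ)` is conjugate to an upper triangular matrix. -/
theorem exists_conj_c_eq_zero (γ : SL(2, ℤ))
    (h : (γ : Matrix (Fin 2) (Fin 2) ℤ).trace ^ 2 = 4) :
    ∃ δ : SL(2, ℤ), (δ⁻¹ * γ * δ) 1 0 = 0 := by
  have hdet : γ 0 0 * γ 1 1 - γ 0 1 * γ 1 0 = 1 := by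
    have := γ.det_coe
    rwa [Matrix.det_fin_two] at this
  have htr : (γ 0 0 + γ 1 1) ^ 2 = 4 := by
    rwa [Matrix.trace_fin_two] at h
  have key : ∀ δ : SL(2, ℤ), (δ⁻¹ * γ * δ) 1 0
      = γ 1 0 * δ 0 0 ^ 2 + (γ 1 1 - γ 0 0) * δ 0 0 * δ 1 0 - γ 0 1 * δ 1 0 ^ 2 := by
    intro δ
    show ((δ⁻¹ * γ * δ : SL(2, ℤ)) : Matrix (Fin 2) (Fin 2) ℤ) 1 0 = _
    rw [Matrix.SpecialLinearGroup.coe_mul, Matrix.SpecialLinearGroup.coe_mul,
      Matrix.SpecialLinearGroup.coe_inv, Matrix.adjugate_fin_two]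
    simp only [Matrix.mul_apply, Fin.sum_univ_two, Matrix.of_apply, Matrix.cons_val',
      Matrix.cons_val_zero, Matrix.cons_val_one, Matrix.cons_val_fin_one]
    ring
  by_cases hc : γ 1 0 = 0
  · refine ⟨1, ?_⟩
    rw [key]
    simp [hc]
  · have hg : 0 < Int.gcd (γ 0 0 - γ 1 1) (2 * γ 1 0) := by
      refine Int.gcd_pos_of_ne_zero_right _ ?_
      exact mul_ne_zero two_ne_zero hc
    obtain ⟨p, q, hpq, hp, hq⟩ := Int.exists_gcd_one hg
    set g : ℤ := (Int.gcd (γ 0 0 - γ 1 1) (2 * γ 1 0) : ℤ) with hgdef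
    have hg0 : g ≠ 0 := by
      rw [hgdef]
      exact_mod_cast hg.ne'
    obtain ⟨δ, hδ0, hδ1⟩ := IsCoprime.exists_SL2_col (Int.isCoprime_iff_gcd_eq_one.mpr hpq) 0
    refine ⟨δ, ?_⟩
    rw [key, hδ0, hδ1]
    have h2 : g ^ 2 * (γ 1 0 * p ^ 2 + (γ 1 1 - γ 0 0) * p * q - γ 0 1 * q ^ 2) = 0 := by
      have e : g ^ 2 * (γ 1 0 * p ^ 2 + (γ 1 1 - γ 0 0) * p * q - γ 0 1 * q ^ 2)
          = γ 1 0 * (p * g) ^ 2 + (γ 1 1 - γ 0 0) * (p * g) * (q * g) - γ 0 1 * (q * g) ^ 2 := by
        ring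
      rw [e, ← hp, ← hq]
      linear_combination (-(γ 1 0)) * htr + (4 * γ 1 0) * hdet
    rcases mul_eq_zero.mp h2 with h3 | h3
    · exact absurd ((pow_eq_zero_iff two_ne_zero).mp h3) hg0
    · exact h3

/-- A trace `±2` element of `SL(2, ℤ)` acts on `ℍ` as a conjugate of a translation. -/
theorem exists_smul_eq_vadd (γ : SL(2, ℤ))
    (h : (γ : Matrix (Fin 2) (Fin 2) ℤ).trace ^ 2 = 4) :
    ∃ (δ : SL(2, ℤ)) (n : ℤ), ∀ z : ℍ, γ • (δ • z) = δ • ((n : ℝ) +ᵥ z) := by
  obtain ⟨δ, hδ⟩ := exists_conj_c_eq_zero γ h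
  obtain ⟨n, hn⟩ := ModularGroup.exists_eq_T_zpow_of_c_eq_zero hδ
  refine ⟨δ, n, fun z => ?_⟩
  have h1 := hn z
  rw [modular_T_zpow_smul] at h1
  rw [← h1, ← mul_smul, ← mul_smul]
  congr 1
  group


/-- Real translations preserve the filter `atImInfty`. -/
theorem tendsto_vadd_atImInfty (x : ℝ) :
    Tendsto (fun w : ℍ => x +ᵥ w) atImInfty atImInfty := by
  rw [atImInfty, tendsto_comap_iff]
  have : (im ∘ fun w : ℍ => x +ᵥ w) = im := by
    funext w
    simp [UpperHalfPlane.vadd_im]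
  rw [this]
  exact tendsto_comap

/-- **Periods vanish on parabolic elements**: the period homomorphism of an equivariant
primitive which has a limit at every cusp is a parabolic homomorphism. -/
theorem isParabolicHom_periodHom {Γ : Subgroup SL(2, ℤ)} {F : ℍ → ℂ}
    (hF : IsEquivariantPrimitive Γ F)
    (hlim : ∀ δ : SL(2, ℤ), ∃ L : ℂ, Tendsto (fun w : ℍ => F (δ • w)) atImInfty (𝓝 L)) :
    IsParabolicHom Γ hF.periodHom := by
  intro γ hγ
  obtain ⟨δ, n, hδ⟩ := exists_smul_eq_vadd (γ : SL(2, ℤ)) hγ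
  obtain ⟨L, hL⟩ := hlim δ
  rw [IsEquivariantPrimitive.periodHom_apply]
  have h1 : ∀ w : ℍ, F (δ • ((n : ℝ) +ᵥ w)) - F (δ • w) = hF.period γ := by
    intro w
    rw [← hδ w]
    exact hF.sub_eq_period γ (δ • w)
  have h2 : Tendsto (fun w : ℍ => F (δ • ((n : ℝ) +ᵥ w)) - F (δ • w)) atImInfty (𝓝 (L - L)) :=
    (hL.comp (tendsto_vadd_atImInfty (n : ℝ))).sub hL
  have h3 : Tendsto (fun w : ℍ => F (δ • ((n : ℝ) +ᵥ w)) - F (δ • w)) atImInfty
      (𝓝 (hF.period γ)) := by
    simp only [h1]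
    exact tendsto_const_nhds
  have := tendsto_nhds_unique h3 h2
  rw [this, sub_self]

/-- The period map of the prelude takes values in the parabolic homomorphisms. -/
theorem periodMap_mem_parabolicHoms (N : ℕ) (f : CuspForm (Gamma0 N) 2) :
    periodMap N f ∈ parabolicHoms ℂ (Gamma0 N) ℂ := by
  by_cases h : ∃ F : ℍ → ℂ, HasEquivariantPrimitive N f F
  · obtain ⟨F, hF⟩ := h
    obtain ⟨F₀, h₀, heq⟩ := periodMap_def N f hF
    rw [heq, mem_parabolicHoms_iff]
    exact isParabolicHom_periodHom h₀.2.2.1 h₀.2.2.2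
  · have : periodMap N f = 0 := by
      unfold periodMap
      rw [dif_neg h]
    rw [this]
    exact Submodule.zero_mem _

/-- **E3**: the range of the period pairing consists of parabolic homomorphisms. -/
theorem range_periodHomPair_le (N : ℕ) :
    LinearMap.range (periodHomPair N) ≤ parabolicHoms ℂ (Gamma0 N) ℂ := by
  by_cases h : ExistsPeriodMapLinear N
  · obtain ⟨pml, hpml, heq⟩ := periodHomPair_def N h
    rintro _ ⟨⟨f, g⟩, rfl⟩
    rw [heq]
    simp only [LinearMap.coprod_apply, LinearMap.comp_apply, LinearMap.add_apply,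
      LinearMap.sub_apply, LinearMap.id_apply, hpml]
    have hf := periodMap_mem_parabolicHoms N f
    have hg := periodMap_mem_parabolicHoms N g
    exact Submodule.add_mem _
      (Submodule.add_mem _ hf (charInvolution_mem_parabolicHoms N ℂ ℂ hf))
      (Submodule.sub_mem _ hg (charInvolution_mem_parabolicHoms N ℂ ℂ hg))
  · have : periodHomPair N = 0 := by
      unfold periodHomPair
      rw [dif_neg h]
    rw [this, LinearMap.range_zero]
    exact bot_le

end Fermat.Agent.S21.H22
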