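import Fermat.Agent.S21.H5_Prim

/-!
# S21, part E3 (helper5): periods of cusp forms vanish on parabolic elements

An element `γ` of `SL(2, ℤ)` with `(tr γ)² = 4` is conjugate in `SL(2, ℤ)` to an upper triangular
matrix, i.e. it acts on `δ • w` as a translation `w ↦ w + h`.  As the primitive of a cusp form has
a limit along `δ • w`, `Im w → ∞`, the period along `γ` vanishes.
-/

set_option autoImplicit false

namespace Fermat.Agent.S21.E1

open UpperHalfPlane Complex CongruenceSubgroup Filter Topology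
open ModularCurve ModularCurve.Period
open Fermat.Agent.S22

open scoped MatrixGroups ModularForm

variable {N : ℕ}

/-- The integer identity behind the classification of parabolic elements. -/
lemma parabolic_arith {a b c d p q g : ℤ} (hdet : a * d - b * c = 1) (htr : (a + d) ^ 2 = 4)
    (hp : p * g = a - d) (hq : q * g = 2 * c) (hg : g ≠ 0) :
    -q * (a * p + b * q) + p * (c * p + d * q) = 0 := by
  have H3 : (a - d) ^ 2 + 4 * b * c = 0 := by
    linear_combination htr - 4 * hdet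
  have key : 2 * g ^ 2 * (-q * (a * p + b * q) + p * (c * p + d * q)) = 0 := by
    have e : 2 * g ^ 2 * (-q * (a * p + b * q) + p * (c * p + d * q))
        = (2 * c) * (p * g) ^ 2 - 2 * (a - d) * (p * g) * (q * g) - 2 * b * (q * g) ^ 2 := by
      ring
    rw [e, hp, hq]
    linear_combination (-2 * c) * H3
  have hne : 2 * g ^ 2 ≠ 0 := mul_ne_zero two_ne_zero (pow_ne_zero _ hg)
  exact (mul_eq_zero.mp key).resolve_left hne

/-- An element of `SL(2, ℤ)` whose trace has square `4` is conjugate to an upper triangular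
matrix. -/
lemma exists_conj_upper (γ : SL(2, ℤ))
    (h : (γ : Matrix (Fin 2) (Fin 2) ℤ).trace ^ 2 = 4) :
    ∃ δ : SL(2, ℤ), (δ⁻¹ * γ * δ) 1 0 = 0 := by
  by_cases hc : γ 1 0 = 0
  · exact ⟨1, by simpa using hc⟩
  have hdet := det_S_int γ
  rw [Matrix.trace_fin_two] at h
  set g : ℤ := (Int.gcd (γ 0 0 - γ 1 1) (2 * γ 1 0) : ℤ) with hgdef
  have hgpos : 0 < Int.gcd (γ 0 0 - γ 1 1) (2 * γ 1 0) := by
    apply Int.gcd_pos_of_ne_zero_right
    exact mul_ne_zero two_ne_zero hc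
  have hg : g ≠ 0 := by
    rw [hgdef]
    exact_mod_cast hgpos.ne'
  set p : ℤ := (γ 0 0 - γ 1 1) / g with hpdef
  set q : ℤ := (2 * γ 1 0) / g with hqdef
  have hp : p * g = γ 0 0 - γ 1 1 := Int.ediv_mul_cancel (Int.gcd_dvd_left _ _)
  have hq : q * g = 2 * γ 1 0 := Int.ediv_mul_cancel (Int.gcd_dvd_right _ _)
  have hcop : IsCoprime p q := by
    rw [Int.isCoprime_iff_gcd_eq_one]
    exact Int.gcd_div_gcd_div_gcd hgpos
  obtain ⟨δ, hδ0, hδ1⟩ := hcop.exists_SL2_col 0
  refine ⟨δ, ?_⟩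
  have key := parabolic_arith (a := γ 0 0) (b := γ 0 1) (c := γ 1 0) (d := γ 1 1)
    (by linear_combination hdet) h hp hq hg
  have hinv : ((δ⁻¹ : SL(2, ℤ)) : Matrix (Fin 2) (Fin 2) ℤ)
      = !![δ 1 1, -δ 0 1; -δ 1 0, δ 0 0] := by
    rw [Matrix.SpecialLinearGroup.SL2_inv_expl]
    rfl
  rw [← hδ0, ← hδ1] at key
  show ((δ⁻¹ * γ * δ : SL(2, ℤ)) : Matrix (Fin 2) (Fin 2) ℤ) 1 0 = 0
  rw [Matrix.SpecialLinearGroup.coe_mul, Matrix.SpecialLinearGroup.coe_mul, hinv]
  simp only [Matrix.mul_apply, Fin.sum_univ_two, Matrix.of_apply, Matrix.cons_val',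
    Matrix.cons_val_zero, Matrix.cons_val_one, Matrix.cons_val_fin_one]
  linear_combination key

/-- Upper triangular elements of `SL(2, ℤ)` act by translations. -/
lemma smul_eq_vadd_of_lower_zero (g : SL(2, ℤ)) (hg : g 1 0 = 0) (w : ℍ) :
    g • w = ((g 0 0 * g 0 1 : ℤ) : ℝ) +ᵥ w := by
  have hdet := det_S_int g
  rw [hg, mul_zero, sub_zero] at hdet
  apply UpperHalfPlane.ext
  rw [coe_smul_eq_mobS, UpperHalfPlane.coe_vadd]
  unfold mobS mob
  rw [hg]
  rcases Int.mul_eq_one_iff_eq_one_or_neg_one.mp hdet with ⟨h0, h1⟩ | ⟨h0, h1⟩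
  · rw [h0, h1]
    push_cast
    ring
  · rw [h0, h1]
    push_cast
    ring

/-- An element of `SL(2, ℤ)` whose trace has square `4` acts as a translation in a suitable
coordinate. -/
lemma exists_smul_smul_eq (γ : SL(2, ℤ))
    (h : (γ : Matrix (Fin 2) (Fin 2) ℤ).trace ^ 2 = 4) :
    ∃ (δ : SL(2, ℤ)) (t : ℝ), ∀ w : ℍ, γ • (δ • w) = δ • (t +ᵥ w) := by
  obtain ⟨δ, hδ⟩ := exists_conj_upper γ h
  refine ⟨δ, (((δ⁻¹ * γ * δ) 0 0 * (δ⁻¹ * γ * δ) 0 1 : ℤ) : ℝ), fun w => ?_⟩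
  rw [← smul_eq_vadd_of_lower_zero _ hδ w, ← mul_smul, ← mul_smul]
  congr 1
  group

lemma tendsto_vadd_atImInfty (t : ℝ) : Tendsto (fun w : ℍ => t +ᵥ w) atImInfty atImInfty := by
  rw [atImInfty, tendsto_comap_iff]
  have : (UpperHalfPlane.im ∘ fun w : ℍ => t +ᵥ w) = UpperHalfPlane.im := by
    funext w
    simp
  rw [this]
  exact tendsto_comap

/-- If `γ` acts as a translation in the coordinate `δ`, the period along `γ` vanishes. -/
theorem periodMap_eq_zero_of_smul_eq [NeZero N] (f : CuspForm (Gamma0 N) 2) (γ : Gamma0 N)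
    (δ : SL(2, ℤ)) (t : ℝ) (hγ : ∀ w : ℍ, (γ : SL(2, ℤ)) • (δ • w) = δ • (t +ᵥ w)) :
    periodMap N f (Additive.ofMul γ) = 0 := by
  obtain ⟨L, hL⟩ := exists_tendsto_prim_smul f δ
  have h1 : Tendsto (fun w : ℍ => prim f (δ • (t +ᵥ w)) - prim f (δ • w)) atImInfty
      (𝓝 (L - L)) := (hL.comp (tendsto_vadd_atImInfty t)).sub hL
  have h2 : (fun w : ℍ => prim f (δ • (t +ᵥ w)) - prim f (δ • w))
      = fun _ => periodMap N f (Additive.ofMul γ) := by
    funext w
    rw [← hγ w]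
    exact prim_smul_sub f γ (δ • w)
  rw [h2, sub_self] at h1
  exact tendsto_nhds_unique tendsto_const_nhds h1

/-- Translation invariance of the primitive in the coordinate at any cusp. -/
theorem prim_smul_vadd [NeZero N] (f : CuspForm (Gamma0 N) 2) (γ : Gamma0 N)
    (δ : SL(2, ℤ)) (t : ℝ) (hγ : ∀ w : ℍ, (γ : SL(2, ℤ)) • (δ • w) = δ • (t +ᵥ w)) (w : ℍ) :
    prim f (δ • (t +ᵥ w)) = prim f (δ • w) := by
  have h := prim_smul_sub f γ (δ • w)
  rw [periodMap_eq_zero_of_smul_eq f γ δ t hγ, hγ w] at h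
  exact sub_eq_zero.mp h

/-- **E3, pointwise.** The period map of a cusp form is a parabolic homomorphism. -/
theorem periodMap_mem_parabolicHoms [NeZero N] (f : CuspForm (Gamma0 N) 2) :
    periodMap N f ∈ parabolicHoms ℂ (Gamma0 N) ℂ := by
  rw [mem_parabolicHoms_iff]
  intro γ hγ
  obtain ⟨δ, t, h⟩ := exists_smul_smul_eq (γ : SL(2, ℤ)) hγ
  exact periodMap_eq_zero_of_smul_eq f γ δ t h

/-- **E3.** The range of `periodHomPair` consists of parabolic homomorphisms. -/
theorem range_periodHomPair_le (N : ℕ) [NeZero N] :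
    LinearMap.range (periodHomPair N) ≤ parabolicHoms ℂ (Gamma0 N) ℂ := by
  obtain ⟨p, hp, hpair⟩ := periodHomPair_def N (existsPeriodMapLinear N)
  rintro _ ⟨⟨f, g⟩, rfl⟩
  rw [hpair]
  simp only [LinearMap.coprod_apply, LinearMap.comp_apply, LinearMap.add_apply,
    LinearMap.sub_apply, LinearMap.id_apply, hp]
  have hf := periodMap_mem_parabolicHoms f
  have hg := periodMap_mem_parabolicHoms g
  exact add_mem (add_mem hf (charInvolution_mem_parabolicHoms N ℂ ℂ hf))
    (sub_mem hg (charInvolution_mem_parabolicHoms N ℂ ℂ hg))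

end Fermat.Agent.S21.E1
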