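import Fermat.Agent.S21.Assembly
import Fermat.Agent.S21.H11_Injective
import Fermat.Agent.S21.H5_Parabolic
import Fermat.Agent.S21.H10_ParBoundFinal

/-!
# S21: final wiring

* `finrank_cuspForm_le_genus`: the upper bound `dim S₂(Γ₀(N)) ≤ g` (E1 + E2 + E3), which is
  the upper bound half of S20;
* `result_of_genus_le`: Eichler-Shimura (S21) from the lower bound `g ≤ dim S₂(Γ₀(N))`.
-/

set_option autoImplicit false

namespace Fermat.Agent.S21

open ModularCurve ModularCurve.Period CongruenceSubgroup UpperHalfPlane

open scoped MatrixGroups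

/-- `S₂(Γ₀(N))` is finite dimensional (from the injectivity of the period map and the finite
dimensionality of the space of parabolic homomorphisms). -/
theorem finiteDimensional_cuspForm_of_periods (N : ℕ) [NeZero N] :
    FiniteDimensional ℂ (CuspForm (Gamma0 N) 2) := by
  have hE1 := Inj.periodHomPair_injective N
  have hE3 := E1.range_periodHomPair_le N
  have hE2fd := E2.finiteDimensional_parabolicHoms N
  have hfd : FiniteDimensional ℂ (CuspForm (Gamma0 N) 2 × CuspForm (Gamma0 N) 2) := by
    have : FiniteDimensional ℂ (LinearMap.range (periodHomPair N)) :=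
      Submodule.finiteDimensional_of_le hE3
    exact Module.Finite.of_injective (periodHomPair N).rangeRestrict
      (by
        intro x y hxy
        apply hE1
        exact congrArg Subtype.val hxy)
  exact Module.Finite.of_injective
    (LinearMap.inl ℂ (CuspForm (Gamma0 N) 2) (CuspForm (Gamma0 N) 2)) LinearMap.inl_injective

/-- **Upper bound half of S20**: `dim S₂(Γ₀(N)) ≤ g`. -/
theorem finrank_cuspForm_le_genus (N : ℕ) [NeZero N] :
    (Module.finrank ℂ (CuspForm (Gamma0 N) 2) : ℚ) ≤ ModularCurve.genusFormula N :=
  finrank_cuspForm_le N (Inj.periodHomPair_injective N) (E1.range_periodHomPair_le N)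
    (E2.finiteDimensional_parabolicHoms N) (E2.finrank_parabolicHoms_le_two_genus N)

/-- **S21 from the lower bound half of S20.** -/
theorem result_of_genus_le (N : ℕ) [NeZero N]
    (h : ModularCurve.genusFormula N ≤ (Module.finrank ℂ (CuspForm (Gamma0 N) 2) : ℚ)) :
    Function.Injective (ModularCurve.periodHomPair N)
      ∧ LinearMap.range (ModularCurve.periodHomPair N)
          = ModularCurve.Period.parabolicHoms ℂ (CongruenceSubgroup.Gamma0 N) ℂ :=
  result_of_lower_bound N (finiteDimensional_cuspForm_of_periods N) h
    (Inj.periodHomPair_injective N) (E1.range_periodHomPair_le N)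
    (E2.finiteDimensional_parabolicHoms N) (E2.finrank_parabolicHoms_le_two_genus N)

/-- **S20 from its lower bound half.** -/
theorem finrank_cuspForm_eq_of_genus_le (N : ℕ) [NeZero N]
    (h : ModularCurve.genusFormula N ≤ (Module.finrank ℂ (CuspForm (Gamma0 N) 2) : ℚ)) :
    (Module.finrank ℂ (CuspForm (CongruenceSubgroup.Gamma0 N) 2) : ℚ)
      = ModularCurve.genusFormula N :=
  le_antisymm (finrank_cuspForm_le_genus N) h

end Fermat.Agent.S21
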