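import Mathlib

/-!
# S21, package E2 (generic part): an upper bound for the dimension of "parabolic" homomorphisms

Let `G` be a group generated by `S` and `T`, let `Γ ≤ G` be a subgroup of finite index,
`X = G ⧸ Γ`, and let `z ∈ Γ` be central in `G` with `S ^ 2 = z` and `(S * T) ^ 3 = z`.
For a field `k` of characteristic zero we bound the dimension of the space of homomorphisms
`φ : Γ → k` which kill `z` and all elements of `Γ` of the form `g⁻¹ * T ^ n * g`:

`finrank + #(X / ⟨S⟩) + #(X / ⟨S * T⟩) + #(X / ⟨T⟩) ≤ #X + 2`.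

The proof is linear algebra on the permutation module `V = (X → k)`: with a set-theoretic
section `sec : X → G`, a homomorphism `φ` gives the cocycle
`coc φ g x = φ ((sec (g • x))⁻¹ * g * sec x)`, and `(φ, f) ↦ (coc φ S + S^* f - f, coc φ T + T^* f - f)`
is injective up to constants, with values in an explicit subspace of `V × V`.
-/

set_option autoImplicit false
set_option linter.unusedSectionVars false

open Module

namespace Fermat.Agent.S21.E2

section Cocycle

variable {G : Type*} [Group G] (Γ : Subgroup G)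

/-- A set-theoretic section of `G → G ⧸ Γ`. -/
noncomputable def sec (x : G ⧸ Γ) : G := Quotient.out x

theorem mk_sec (x : G ⧸ Γ) : (QuotientGroup.mk (sec Γ x) : G ⧸ Γ) = x :=
  QuotientGroup.out_eq' x

theorem smul_eq_mk (g : G) (x : G ⧸ Γ) : g • x = QuotientGroup.mk (g * sec Γ x) := by
  conv_lhs => rw [← mk_sec Γ x]
  rfl

theorem cocEl_mem (g : G) (x : G ⧸ Γ) : (sec Γ (g • x))⁻¹ * (g * sec Γ x) ∈ Γ := by
  rw [← QuotientGroup.eq, mk_sec, smul_eq_mk]

/-- The element `(sec (g • x))⁻¹ * g * sec x` of `Γ`. -/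
noncomputable def cocEl (g : G) (x : G ⧸ Γ) : Γ :=
  ⟨(sec Γ (g • x))⁻¹ * (g * sec Γ x), cocEl_mem Γ g x⟩

theorem coe_cocEl (g : G) (x : G ⧸ Γ) :
    (cocEl Γ g x : G) = (sec Γ (g • x))⁻¹ * (g * sec Γ x) := rfl

theorem cocEl_mul (g h : G) (x : G ⧸ Γ) :
    cocEl Γ (g * h) x = cocEl Γ g (h • x) * cocEl Γ h x := by
  apply Subtype.ext
  rw [Subgroup.coe_mul, coe_cocEl, coe_cocEl, coe_cocEl, mul_smul]
  group

theorem cocEl_one (x : G ⧸ Γ) : cocEl Γ 1 x = 1 := by
  apply Subtype.ext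
  rw [coe_cocEl, one_smul]
  simp

variable {Γ}

theorem smul_eq_self_of_central {z : G} (hz : z ∈ Γ) (hc : ∀ g : G, g * z = z * g)
    (x : G ⧸ Γ) : z • x = x := by
  rw [smul_eq_mk, ← hc]
  conv_rhs => rw [← mk_sec Γ x]
  rw [QuotientGroup.eq]
  simpa using hz

theorem cocEl_central {z : G} (hz : z ∈ Γ) (hc : ∀ g : G, g * z = z * g)
    (x : G ⧸ Γ) : cocEl Γ z x = ⟨z, hz⟩ := by
  apply Subtype.ext
  rw [coe_cocEl, smul_eq_self_of_central hz hc, ← hc, ← mul_assoc, inv_mul_cancel, one_mul]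

theorem coe_cocEl_of_smul_eq {g : G} {x : G ⧸ Γ} (h : g • x = x) :
    (cocEl Γ g x : G) = (sec Γ x)⁻¹ * g * sec Γ x := by
  rw [coe_cocEl, h, mul_assoc]

end Cocycle

section Linear

variable {G : Type*} [Group G] (Γ : Subgroup G) (k : Type*) [Field k]

/-- The pull-back operator `g^*` on functions on `G ⧸ Γ`: `(g^* f) x = f (g • x)`. -/
noncomputable def pull (g : G) : ((G ⧸ Γ) → k) →ₗ[k] ((G ⧸ Γ) → k) :=
  LinearMap.funLeft k k (fun x => g • x)

@[simp] theorem pull_apply (g : G) (f : (G ⧸ Γ) → k) (x : G ⧸ Γ) :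
    pull Γ k g f x = f (g • x) := rfl

theorem pull_mul (g h : G) (f : (G ⧸ Γ) → k) :
    pull Γ k (g * h) f = pull Γ k h (pull Γ k g f) := by
  funext x
  simp [mul_smul]

theorem pull_one (f : (G ⧸ Γ) → k) : pull Γ k 1 f = f := by
  funext x
  simp

theorem pull_of_smul_eq {g : G} (hg : ∀ x : G ⧸ Γ, g • x = x) (f : (G ⧸ Γ) → k) :
    pull Γ k g f = f := by
  funext x
  simp [hg]

/-- The norm operator `∑ i < w, (g ^ i)^*`. -/
noncomputable def normOp (g : G) (w : ℕ) : ((G ⧸ Γ) → k) →ₗ[k] ((G ⧸ Γ) → k) :=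
  ∑ i ∈ Finset.range w, pull Γ k (g ^ i)

theorem normOp_apply (g : G) (w : ℕ) (f : (G ⧸ Γ) → k) :
    normOp Γ k g w f = ∑ i ∈ Finset.range w, pull Γ k (g ^ i) f := by
  simp [normOp]

/-- The cocycle attached to a homomorphism `φ`, as a linear map in `φ`. -/
noncomputable def cocL (g : G) : (Additive Γ →+ k) →ₗ[k] ((G ⧸ Γ) → k) where
  toFun φ := fun x => φ (Additive.ofMul (cocEl Γ g x))
  map_add' := by intros; rfl
  map_smul' := by intros; rfl

@[simp] theorem cocL_apply (g : G) (φ : Additive Γ →+ k) (x : G ⧸ Γ) :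
    cocL Γ k g φ x = φ (Additive.ofMul (cocEl Γ g x)) := rfl

theorem cocL_mul (g h : G) (φ : Additive Γ →+ k) :
    cocL Γ k (g * h) φ = pull Γ k h (cocL Γ k g φ) + cocL Γ k h φ := by
  funext x
  simp only [cocL_apply, Pi.add_apply, pull_apply, cocEl_mul, ofMul_mul, map_add]

theorem cocL_one (φ : Additive Γ →+ k) : cocL Γ k 1 φ = 0 := by
  funext x
  simp [cocEl_one]

theorem cocL_pow (g : G) (n : ℕ) (φ : Additive Γ →+ k) :
    cocL Γ k (g ^ n) φ = normOp Γ k g n (cocL Γ k g φ) := by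
  induction n with
  | zero => simp [cocL_one, normOp]
  | succ n ih =>
    rw [pow_succ', cocL_mul, ih, normOp_apply, normOp_apply, Finset.sum_range_succ, add_comm]

theorem normOp_pull_sub {g : G} {w : ℕ} (hg : ∀ x : G ⧸ Γ, g ^ w • x = x) (f : (G ⧸ Γ) → k) :
    normOp Γ k g w (pull Γ k g f - f) = 0 := by
  rw [normOp_apply]
  have h : ∀ i : ℕ, pull Γ k (g ^ i) (pull Γ k g f - f)
      = pull Γ k (g ^ (i + 1)) f - pull Γ k (g ^ i) f := by
    intro i
    rw [map_sub, pow_succ', pull_mul]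
  simp only [h]
  rw [Finset.sum_range_sub (fun i => pull Γ k (g ^ i) f), pow_zero, pull_one,
    pull_of_smul_eq Γ k hg, sub_self]

/-- The main map `(φ, f) ↦ (coc φ S + S^* f - f, coc φ T + T^* f - f)`. -/
noncomputable def Psi (S T : G) :
    ((Additive Γ →+ k) × ((G ⧸ Γ) → k)) →ₗ[k] (((G ⧸ Γ) → k) × ((G ⧸ Γ) → k)) :=
  LinearMap.prod
    ((cocL Γ k S).comp (LinearMap.fst k _ _)
      + (pull Γ k S - LinearMap.id).comp (LinearMap.snd k _ _))
    ((cocL Γ k T).comp (LinearMap.fst k _ _)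
      + (pull Γ k T - LinearMap.id).comp (LinearMap.snd k _ _))

theorem Psi_apply (S T : G) (φ : Additive Γ →+ k) (f : (G ⧸ Γ) → k) :
    Psi Γ k S T (φ, f)
      = (cocL Γ k S φ + (pull Γ k S f - f), cocL Γ k T φ + (pull Γ k T f - f)) := rfl

variable {Γ k}

/-- If the cocycle of `φ` agrees with the coboundary of `f` on generators, it does so on all
of `G`. -/
theorem cocL_eq_of_gen {S T : G} (hgen : Subgroup.closure {S, T} = ⊤)
    {φ : Additive Γ →+ k} {f : (G ⧸ Γ) → k}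
    (hS : cocL Γ k S φ = f - pull Γ k S f) (hT : cocL Γ k T φ = f - pull Γ k T f) (g : G) :
    cocL Γ k g φ = f - pull Γ k g f := by
  have hg : g ∈ Subgroup.closure {S, T} := by rw [hgen]; trivial
  induction hg using Subgroup.closure_induction with
  | mem x hx =>
    rcases hx with rfl | hx
    · exact hS
    · rw [Set.mem_singleton_iff] at hx
      subst hx
      exact hT
  | one => rw [cocL_one, pull_one, sub_self]
  | mul x y _ _ hx hy =>
    rw [cocL_mul, hx, hy, map_sub, pull_mul]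
    abel
  | inv x _ hx =>
    have h1 : cocL Γ k (x * x⁻¹) φ = 0 := by rw [mul_inv_cancel, cocL_one]
    rw [cocL_mul, hx, map_sub, ← pull_mul, mul_inv_cancel, pull_one] at h1
    have h2 : cocL Γ k x⁻¹ φ = -(pull Γ k x⁻¹ f - f) := eq_neg_of_add_eq_zero_right h1
    rw [h2]
    abel

theorem apply_cocEl_of_mem (φ : Additive Γ →+ k) (γ : Γ) :
    φ (Additive.ofMul (cocEl Γ (γ : G) (QuotientGroup.mk 1))) = φ (Additive.ofMul γ) := by
  have hfix : (γ : G) • (QuotientGroup.mk 1 : G ⧸ Γ) = QuotientGroup.mk 1 := by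
    show (QuotientGroup.mk ((γ : G) * 1) : G ⧸ Γ) = QuotientGroup.mk 1
    rw [QuotientGroup.eq]
    simp
  have hs : sec Γ (QuotientGroup.mk 1 : G ⧸ Γ) ∈ Γ := by
    have := mk_sec Γ (QuotientGroup.mk 1 : G ⧸ Γ)
    rw [QuotientGroup.eq] at this
    simpa using Γ.inv_mem this
  have hEq : cocEl Γ (γ : G) (QuotientGroup.mk 1)
      = (⟨_, hs⟩ : Γ)⁻¹ * γ * ⟨_, hs⟩ := by
    apply Subtype.ext
    rw [coe_cocEl_of_smul_eq hfix]
    rfl
  rw [hEq, ofMul_mul, ofMul_mul, ofMul_inv, map_add, map_add, map_neg]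
  abel

/-- The kernel of `Psi` consists of pairs `(0, constant)`. -/
theorem ker_Psi {S T : G} (hgen : Subgroup.closure {S, T} = ⊤)
    {φ : Additive Γ →+ k} {f : (G ⧸ Γ) → k} (h : Psi Γ k S T (φ, f) = 0) :
    φ = 0 ∧ ∀ x, f x = f (QuotientGroup.mk 1) := by
  rw [Psi_apply, Prod.mk_eq_zero] at h
  have hS : cocL Γ k S φ = f - pull Γ k S f :=
    (eq_neg_of_add_eq_zero_left h.1).trans (neg_sub _ _)
  have hT : cocL Γ k T φ = f - pull Γ k T f :=
    (eq_neg_of_add_eq_zero_left h.2).trans (neg_sub _ _)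
  have key := cocL_eq_of_gen hgen hS hT
  have hφ : φ = 0 := by
    refine AddMonoidHom.ext fun γ => ?_
    obtain ⟨γ, rfl⟩ : ∃ γ' : Γ, Additive.ofMul γ' = γ := ⟨Additive.toMul γ, rfl⟩
    have h1 := congrFun (key (γ : G)) (QuotientGroup.mk 1)
    rw [cocL_apply, apply_cocEl_of_mem] at h1
    have hfix : (γ : G) • (QuotientGroup.mk 1 : G ⧸ Γ) = QuotientGroup.mk 1 := by
      show (QuotientGroup.mk ((γ : G) * 1) : G ⧸ Γ) = QuotientGroup.mk 1
      rw [QuotientGroup.eq]
      simp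
    rw [Pi.sub_apply, pull_apply, hfix, sub_self] at h1
    exact h1
  refine ⟨hφ, fun x => ?_⟩
  have h1 := congrFun (key (sec Γ x)) (QuotientGroup.mk 1)
  rw [hφ] at h1
  have hx : sec Γ x • (QuotientGroup.mk 1 : G ⧸ Γ) = x := by
    show (QuotientGroup.mk (sec Γ x * 1) : G ⧸ Γ) = x
    rw [mul_one, mk_sec]
  rw [map_zero, Pi.zero_apply, Pi.sub_apply, pull_apply, hx] at h1
  exact (sub_eq_zero.mp h1.symm).symm

theorem cocL_central {z : G} (hz : z ∈ Γ) (hc : ∀ g : G, g * z = z * g)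
    {φ : Additive Γ →+ k} (hφ : φ (Additive.ofMul ⟨z, hz⟩) = 0) :
    cocL Γ k z φ = 0 := by
  funext x
  rw [cocL_apply, cocEl_central hz hc, hφ]
  rfl

theorem cocL_conj {t : G} (ht : ∀ x : G ⧸ Γ, t • x = x) {φ : Additive Γ →+ k}
    (hφ : ∀ (g : G) (h : g⁻¹ * t * g ∈ Γ), φ (Additive.ofMul ⟨_, h⟩) = 0) :
    cocL Γ k t φ = 0 := by
  funext x
  have hmem : (sec Γ x)⁻¹ * t * sec Γ x ∈ Γ := by
    rw [← coe_cocEl_of_smul_eq (ht x)]
    exact (cocEl Γ t x).2
  have hEq : cocEl Γ t x = ⟨_, hmem⟩ := Subtype.ext (coe_cocEl_of_smul_eq (ht x))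
  rw [cocL_apply, hEq, hφ]
  rfl

/-- General form of the relations: if `cocL (g ^ w) φ = 0` and `g ^ w` acts trivially, then the
norm operator of `g` kills `cocL g φ + (g^* f - f)`. -/
theorem normOp_cocL_add {g : G} {w : ℕ} (hg : ∀ x : G ⧸ Γ, g ^ w • x = x)
    {φ : Additive Γ →+ k} (hφ : cocL Γ k (g ^ w) φ = 0) (f : (G ⧸ Γ) → k) :
    normOp Γ k g w (cocL Γ k g φ + (pull Γ k g f - f)) = 0 := by
  rw [map_add, ← cocL_pow, hφ, normOp_pull_sub Γ k hg, add_zero]

section Dim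

variable [Finite (G ⧸ Γ)]

/-- (D1) `dim ker N_g + #orbits ≤ #X` (in fact equality holds). -/
theorem finrank_ker_normOp_add_le [CharZero k] (g : G) {w : ℕ} (hw : 0 < w) :
    finrank k (LinearMap.ker (normOp Γ k g w))
      + Nat.card (MulAction.orbitRel.Quotient (Subgroup.zpowers g) (G ⧸ Γ))
      ≤ Nat.card (G ⧸ Γ) := by
  classical
  have : Fintype (G ⧸ Γ) := Fintype.ofFinite _
  have : Fintype (MulAction.orbitRel.Quotient (Subgroup.zpowers g) (G ⧸ Γ)) :=
    Fintype.ofFinite _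
  have hrn := LinearMap.finrank_range_add_finrank_ker (normOp Γ k g w)
  rw [Module.finrank_fintype_fun_eq_card] at hrn
  rw [Nat.card_eq_fintype_card, Nat.card_eq_fintype_card, ← hrn, add_comm]
  refine Nat.add_le_add_right ?_ _
  -- orbit functions
  let q : (G ⧸ Γ) → MulAction.orbitRel.Quotient (Subgroup.zpowers g) (G ⧸ Γ) :=
    Quotient.mk _
  have hq : Function.Surjective q := Quotient.mk_surjective
  let ι : (MulAction.orbitRel.Quotient (Subgroup.zpowers g) (G ⧸ Γ) → k) →ₗ[k]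
      ((G ⧸ Γ) → k) := LinearMap.funLeft k k q
  have hι : Function.Injective ι := LinearMap.funLeft_injective_of_surjective k k q hq
  have hqg : ∀ (i : ℕ) (x : G ⧸ Γ), q (g ^ i • x) = q x := by
    intro i x
    apply Quotient.sound
    show MulAction.orbitRel (Subgroup.zpowers g) (G ⧸ Γ) (g ^ i • x) x
    rw [MulAction.orbitRel_apply]
    exact MulAction.mem_orbit x (⟨g ^ i, ⟨(i : ℤ), by simp⟩⟩ : Subgroup.zpowers g)
  have hpull : ∀ (i : ℕ) (F : MulAction.orbitRel.Quotient (Subgroup.zpowers g) (G ⧸ Γ) → k),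
      pull Γ k (g ^ i) (ι F) = ι F := by
    intro i F
    funext x
    show F (q (g ^ i • x)) = F (q x)
    rw [hqg]
  have hle : LinearMap.range ι ≤ LinearMap.range (normOp Γ k g w) := by
    rintro _ ⟨F, rfl⟩
    refine ⟨(w : k)⁻¹ • ι F, ?_⟩
    rw [map_smul, normOp_apply]
    simp only [hpull]
    rw [Finset.sum_const, Finset.card_range, ← Nat.cast_smul_eq_nsmul k, smul_smul,
      inv_mul_cancel₀ (Nat.cast_ne_zero.mpr hw.ne'), one_smul]
  calc Fintype.card (MulAction.orbitRel.Quotient (Subgroup.zpowers g) (G ⧸ Γ))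
      = finrank k (MulAction.orbitRel.Quotient (Subgroup.zpowers g) (G ⧸ Γ) → k) :=
        (Module.finrank_fintype_fun_eq_card k).symm
    _ = finrank k (LinearMap.range ι) := (LinearMap.finrank_range_of_inj hι).symm
    _ ≤ finrank k (LinearMap.range (normOp Γ k g w)) := Submodule.finrank_mono hle

/-- All coboundaries `g^* f - f` lie in `ker N_A ⊔ ker N_B` if `A`, `B` generate `G`. -/
theorem pull_sub_mem_sup {A B : G} (hgen : Subgroup.closure {A, B} = ⊤) {wA wB : ℕ}
    (hA : ∀ x : G ⧸ Γ, A ^ wA • x = x) (hB : ∀ x : G ⧸ Γ, B ^ wB • x = x)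
    (g : G) (f : (G ⧸ Γ) → k) :
    pull Γ k g f - f ∈ LinearMap.ker (normOp Γ k A wA) ⊔ LinearMap.ker (normOp Γ k B wB) := by
  have hg : g ∈ Subgroup.closure {A, B} := by rw [hgen]; trivial
  induction hg using Subgroup.closure_induction generalizing f with
  | mem x hx =>
    rcases hx with rfl | hx
    · exact Submodule.mem_sup_left (LinearMap.mem_ker.mpr (normOp_pull_sub Γ k hA f))
    · rw [Set.mem_singleton_iff] at hx
      subst hx
      exact Submodule.mem_sup_right (LinearMap.mem_ker.mpr (normOp_pull_sub Γ k hB f))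
  | one => rw [pull_one, sub_self]; exact Submodule.zero_mem _
  | mul x y _ _ hx hy =>
    have h : pull Γ k (x * y) f - f
        = (pull Γ k y (pull Γ k x f) - pull Γ k x f) + (pull Γ k x f - f) := by
      rw [pull_mul]; abel
    rw [h]
    exact Submodule.add_mem _ (hy _) (hx _)
  | inv x _ hx =>
    have h : pull Γ k x⁻¹ f - f = -(pull Γ k x (pull Γ k x⁻¹ f) - pull Γ k x⁻¹ f) := by
      rw [← pull_mul, inv_mul_cancel, pull_one]; abel
    rw [h]
    exact Submodule.neg_mem _ (hx _)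

/-- (D2) `#X ≤ dim (ker N_A ⊔ ker N_B) + 1` if `A`, `B` generate `G`. -/
theorem card_le_finrank_sup_add_one {A B : G} (hgen : Subgroup.closure {A, B} = ⊤) {wA wB : ℕ}
    (hA : ∀ x : G ⧸ Γ, A ^ wA • x = x) (hB : ∀ x : G ⧸ Γ, B ^ wB • x = x) :
    Nat.card (G ⧸ Γ)
      ≤ finrank k ↥(LinearMap.ker (normOp Γ k A wA) ⊔ LinearMap.ker (normOp Γ k B wB)) + 1 := by
  classical
  have : Fintype (G ⧸ Γ) := Fintype.ofFinite _
  set R := LinearMap.ker (normOp Γ k A wA) ⊔ LinearMap.ker (normOp Γ k B wB) with hR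
  -- augmentation
  let aug : ((G ⧸ Γ) → k) →ₗ[k] k := ∑ x : G ⧸ Γ, LinearMap.proj x
  have haug : ∀ f : (G ⧸ Γ) → k, aug f = ∑ x, f x := by
    intro f
    simp [aug]
  have hker : LinearMap.ker aug ≤ R := by
    intro f hf
    rw [LinearMap.mem_ker, haug] at hf
    set e : (G ⧸ Γ) → k := Pi.single (QuotientGroup.mk 1) 1 with he
    have hdec : f = ∑ x : G ⧸ Γ, f x • (pull Γ k (sec Γ x)⁻¹ e - e) := by
      funext y
      have h1 : ∀ x : G ⧸ Γ, (pull Γ k (sec Γ x)⁻¹ e) y = if x = y then 1 else 0 := by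
        intro x
        rw [pull_apply, he, Pi.single_apply]
        have hiff : ((sec Γ x)⁻¹ • y = (QuotientGroup.mk 1 : G ⧸ Γ)) ↔ x = y := by
          rw [inv_smul_eq_iff]
          have hx : sec Γ x • (QuotientGroup.mk 1 : G ⧸ Γ) = x := by
            show (QuotientGroup.mk (sec Γ x * 1) : G ⧸ Γ) = x
            rw [mul_one, mk_sec]
          rw [hx, eq_comm]
        simp only [hiff]
      simp only [Finset.sum_apply, Pi.smul_apply, Pi.sub_apply, smul_eq_mul, mul_sub, h1,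
        Finset.sum_sub_distrib, mul_ite, mul_one, mul_zero, Finset.sum_ite_eq',
        Finset.mem_univ, if_true, ← Finset.sum_mul, hf, zero_mul, sub_zero]
    rw [hdec]
    exact Submodule.sum_mem _ fun x _ =>
      Submodule.smul_mem _ _ (pull_sub_mem_sup hgen hA hB _ _)
  have hrn := LinearMap.finrank_range_add_finrank_ker aug
  rw [Module.finrank_fintype_fun_eq_card] at hrn
  have h1 : finrank k (LinearMap.range aug) ≤ 1 := by
    have := Submodule.finrank_le (LinearMap.range aug)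
    rwa [Module.finrank_self] at this
  have h2 : finrank k (LinearMap.ker aug) ≤ finrank k R := Submodule.finrank_mono hker
  rw [Nat.card_eq_fintype_card]
  omega

end Dim

end Linear

section Main

variable {G : Type*} [Group G] {Γ : Subgroup G} [Finite (G ⧸ Γ)] {k : Type*} [Field k]

theorem finiteDimensional_hom {S T : G} (hgen : Subgroup.closure {S, T} = ⊤) :
    FiniteDimensional k (Additive Γ →+ k) := by
  have hinj : Function.Injective
      ((Psi Γ k S T).comp (LinearMap.inl k (Additive Γ →+ k) ((G ⧸ Γ) → k))) := by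
    rw [injective_iff_map_eq_zero]
    intro φ hφ
    exact (ker_Psi hgen hφ).1
  exact FiniteDimensional.of_injective _ hinj

theorem exists_pow_smul_eq (T : G) : ∃ w : ℕ, 0 < w ∧ ∀ x : G ⧸ Γ, T ^ w • x = x := by
  have hfin := isOfFinOrder_of_finite (MulAction.toPermHom G (G ⧸ Γ) T)
  refine ⟨orderOf (MulAction.toPermHom G (G ⧸ Γ) T), hfin.orderOf_pos, fun x => ?_⟩
  have h := pow_orderOf_eq_one (MulAction.toPermHom G (G ⧸ Γ) T)
  rw [← map_pow] at h
  have h' := congrArg (fun σ : Equiv.Perm (G ⧸ Γ) => σ x) h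
  simpa using h'

/-- The subspace of `V × V` containing the image of `Psi` on parabolic homomorphisms. -/
noncomputable def Zsp (Γ : Subgroup G) (k : Type*) [Field k] (S T : G) (w : ℕ) :
    Submodule k (((G ⧸ Γ) → k) × ((G ⧸ Γ) → k)) :=
  LinearMap.ker ((normOp Γ k S 2).comp (LinearMap.fst k _ _))
    ⊓ (LinearMap.ker ((normOp Γ k T w).comp (LinearMap.snd k _ _))
      ⊓ LinearMap.ker ((normOp Γ k (S * T) 3).comp
          ((pull Γ k T).comp (LinearMap.fst k _ _) + LinearMap.snd k _ _)))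

theorem mem_Zsp {S T : G} {w : ℕ} {a b : (G ⧸ Γ) → k} :
    (a, b) ∈ Zsp Γ k S T w ↔ normOp Γ k S 2 a = 0 ∧ normOp Γ k T w b = 0
      ∧ normOp Γ k (S * T) 3 (pull Γ k T a + b) = 0 := Iff.rfl

theorem finrank_Zsp_le (S T : G) (w : ℕ) :
    finrank k (Zsp Γ k S T w) ≤ finrank k (LinearMap.ker (normOp Γ k S 2))
      + finrank k ↥(LinearMap.ker (normOp Γ k T w) ⊓ LinearMap.ker (normOp Γ k (S * T) 3)) := by
  let π : Zsp Γ k S T w →ₗ[k] ((G ⧸ Γ) → k) :=
    (LinearMap.fst k _ _).comp (Zsp Γ k S T w).subtype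
  have hr := LinearMap.finrank_range_add_finrank_ker π
  have hπr : LinearMap.range π ≤ LinearMap.ker (normOp Γ k S 2) := by
    rintro _ ⟨⟨⟨a, b⟩, hab⟩, rfl⟩
    exact (mem_Zsp.mp hab).1
  let σ : LinearMap.ker π →ₗ[k] ((G ⧸ Γ) → k) :=
    (LinearMap.snd k _ _).comp ((Zsp Γ k S T w).subtype.comp (LinearMap.ker π).subtype)
  have hσ : Function.Injective σ := by
    rw [injective_iff_map_eq_zero]
    rintro ⟨⟨⟨a, b⟩, hab⟩, h0⟩ hb
    have ha : a = 0 := LinearMap.mem_ker.mp h0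
    have hb' : b = 0 := hb
    apply Subtype.ext
    apply Subtype.ext
    exact Prod.ext ha hb'
  have hσr : LinearMap.range σ
      ≤ LinearMap.ker (normOp Γ k T w) ⊓ LinearMap.ker (normOp Γ k (S * T) 3) := by
    rintro _ ⟨⟨⟨⟨a, b⟩, hab⟩, h0⟩, rfl⟩
    have ha : a = 0 := LinearMap.mem_ker.mp h0
    obtain ⟨-, h2, h3⟩ := mem_Zsp.mp hab
    refine ⟨h2, ?_⟩
    rw [ha, map_zero, zero_add] at h3
    exact h3
  have h1 : finrank k (LinearMap.range π) ≤ finrank k (LinearMap.ker (normOp Γ k S 2)) :=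
    Submodule.finrank_mono hπr
  have h2 : finrank k (LinearMap.ker π)
      ≤ finrank k ↥(LinearMap.ker (normOp Γ k T w) ⊓ LinearMap.ker (normOp Γ k (S * T) 3)) := by
    rw [← LinearMap.finrank_range_of_inj hσ]
    exact Submodule.finrank_mono hσr
  omega

/-- **Generic upper bound** for the dimension of a space of "parabolic" homomorphisms. -/
theorem generic_bound (Γ : Subgroup G) [Finite (G ⧸ Γ)]
    (S T z : G) (hgen : Subgroup.closure {S, T} = ⊤) (hz : z ∈ Γ) (hc : ∀ g : G, g * z = z * g)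
    (hS : S ^ 2 = z) (hU : (S * T) ^ 3 = z)
    (k : Type*) [Field k] [CharZero k]
    (P : Submodule k (Additive Γ →+ k))
    (hPz : ∀ φ ∈ P, φ (Additive.ofMul ⟨z, hz⟩) = 0)
    (hPT : ∀ φ ∈ P, ∀ (n : ℕ) (g : G) (h : g⁻¹ * T ^ n * g ∈ Γ),
      φ (Additive.ofMul ⟨_, h⟩) = 0) :
    FiniteDimensional k P ∧
    finrank k P
      + Nat.card (MulAction.orbitRel.Quotient (Subgroup.zpowers S) (G ⧸ Γ))
      + Nat.card (MulAction.orbitRel.Quotient (Subgroup.zpowers (S * T)) (G ⧸ Γ))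
      + Nat.card (MulAction.orbitRel.Quotient (Subgroup.zpowers T) (G ⧸ Γ))
      ≤ Nat.card (G ⧸ Γ) + 2 := by
  classical
  have hfd : FiniteDimensional k (Additive Γ →+ k) := finiteDimensional_hom hgen
  refine ⟨inferInstance, ?_⟩
  have : Fintype (G ⧸ Γ) := Fintype.ofFinite _
  obtain ⟨w, hw0, hw⟩ := exists_pow_smul_eq (Γ := Γ) T
  have hS2 : ∀ x : G ⧸ Γ, S ^ 2 • x = x := fun x => by
    rw [hS]; exact smul_eq_self_of_central hz hc x
  have hU3 : ∀ x : G ⧸ Γ, (S * T) ^ 3 • x = x := fun x => by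
    rw [hU]; exact smul_eq_self_of_central hz hc x
  have hgen' : Subgroup.closure {T, S * T} = ⊤ := by
    rw [← top_le_iff, ← hgen, Subgroup.closure_le]
    rintro x (rfl | hx)
    · have hT : T ∈ Subgroup.closure {T, x * T} := Subgroup.subset_closure (by simp)
      have hST : x * T ∈ Subgroup.closure {T, x * T} := Subgroup.subset_closure (by simp)
      have := Subgroup.mul_mem _ hST (Subgroup.inv_mem _ hT)
      simpa using this
    · rw [Set.mem_singleton_iff] at hx
      subst hx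
      exact Subgroup.subset_closure (by simp)
  -- the two pieces of `Psi`
  let j₀ : (Additive Γ →+ k) →ₗ[k] (((G ⧸ Γ) → k) × ((G ⧸ Γ) → k)) :=
    (Psi Γ k S T).comp (LinearMap.inl k (Additive Γ →+ k) ((G ⧸ Γ) → k))
  let δ : ((G ⧸ Γ) → k) →ₗ[k] (((G ⧸ Γ) → k) × ((G ⧸ Γ) → k)) :=
    (Psi Γ k S T).comp (LinearMap.inr k (Additive Γ →+ k) ((G ⧸ Γ) → k))
  have hj₀ : ∀ φ, j₀ φ = Psi Γ k S T (φ, 0) := fun φ => rfl
  have hδ : ∀ f, δ f = Psi Γ k S T (0, f) := fun f => rfl
  have hinj : Function.Injective j₀ := by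
    rw [injective_iff_map_eq_zero]
    intro φ hφ
    exact (ker_Psi hgen hφ).1
  -- membership in `Zsp`
  have hmem : ∀ φ ∈ P, ∀ f : (G ⧸ Γ) → k, Psi Γ k S T (φ, f) ∈ Zsp Γ k S T w := by
    intro φ hφ f
    rw [Psi_apply, mem_Zsp]
    refine ⟨?_, ?_, ?_⟩
    · exact normOp_cocL_add hS2 (by rw [hS]; exact cocL_central hz hc (hPz φ hφ)) f
    · exact normOp_cocL_add hw (cocL_conj hw (fun g h => hPT φ hφ w g h)) f
    · have h : pull Γ k T (cocL Γ k S φ + (pull Γ k S f - f))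
          + (cocL Γ k T φ + (pull Γ k T f - f))
          = cocL Γ k (S * T) φ + (pull Γ k (S * T) f - f) := by
        rw [cocL_mul, pull_mul, map_add, map_sub]; abel
      rw [h]
      exact normOp_cocL_add hU3 (by rw [hU]; exact cocL_central hz hc (hPz φ hφ)) f
  -- (1) `P` and its image
  have e1 : finrank k P = finrank k (P.map j₀) :=
    LinearEquiv.finrank_eq (Submodule.equivMapOfInjective j₀ hinj P)
  -- (2) the coboundaries
  have e2 : Nat.card (G ⧸ Γ) ≤ finrank k (LinearMap.range δ) + 1 := by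
    have hrn := LinearMap.finrank_range_add_finrank_ker δ
    rw [Module.finrank_fintype_fun_eq_card, ← Nat.card_eq_fintype_card] at hrn
    have hker : finrank k (LinearMap.ker δ) ≤ 1 := by
      let ev : LinearMap.ker δ →ₗ[k] k :=
        (LinearMap.proj (QuotientGroup.mk 1 : G ⧸ Γ)).comp (LinearMap.ker δ).subtype
      have hev : Function.Injective ev := by
        rw [injective_iff_map_eq_zero]
        rintro ⟨f, hf⟩ h0
        have h0' : f (QuotientGroup.mk 1) = 0 := h0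
        have hf' : Psi Γ k S T (0, f) = 0 := LinearMap.mem_ker.mp hf
        obtain ⟨-, h2⟩ := ker_Psi hgen hf'
        apply Subtype.ext
        exact funext fun x => (h2 x).trans h0'
      calc finrank k (LinearMap.ker δ) ≤ finrank k k :=
            LinearMap.finrank_le_finrank_of_injective hev
        _ = 1 := Module.finrank_self k
    omega
  -- (3) trivial intersection
  have e3 : P.map j₀ ⊓ LinearMap.range δ = ⊥ := by
    rw [eq_bot_iff]
    rintro x ⟨⟨φ, -, hφx⟩, ⟨f, hfx⟩⟩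
    have h0 : Psi Γ k S T (φ, -f) = 0 := by
      have h1 : ((φ, -f) : (Additive Γ →+ k) × ((G ⧸ Γ) → k)) = (φ, 0) - (0, f) := by
        simp
      rw [h1, map_sub, ← hj₀, ← hδ, hφx, hfx, sub_self]
    have hφ0 : φ = 0 := (ker_Psi hgen h0).1
    rw [Submodule.mem_bot, ← hφx, hφ0, map_zero]
  -- (4) containment
  have e4 : P.map j₀ ⊔ LinearMap.range δ ≤ Zsp Γ k S T w := by
    refine sup_le ?_ ?_
    · rintro _ ⟨φ, hφ, rfl⟩
      exact hmem φ hφ 0
    · rintro _ ⟨f, rfl⟩
      exact hmem 0 P.zero_mem f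
  have e5 := Submodule.finrank_sup_add_finrank_inf_eq (P.map j₀) (LinearMap.range δ)
  rw [e3, finrank_bot, add_zero] at e5
  have h2 : finrank k ↥(P.map j₀ ⊔ LinearMap.range δ) ≤ finrank k (Zsp Γ k S T w) :=
    Submodule.finrank_mono e4
  have h2' := finrank_Zsp_le (Γ := Γ) (k := k) S T w
  have h3 := Submodule.finrank_sup_add_finrank_inf_eq (LinearMap.ker (normOp Γ k T w))
    (LinearMap.ker (normOp Γ k (S * T) 3))
  have h4 := card_le_finrank_sup_add_one (Γ := Γ) (k := k) hgen' hw hU3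
  have h5 := finrank_ker_normOp_add_le (Γ := Γ) (k := k) S (w := 2) (by norm_num)
  have h6 := finrank_ker_normOp_add_le (Γ := Γ) (k := k) T hw0
  have h7 := finrank_ker_normOp_add_le (Γ := Γ) (k := k) (S * T) (w := 3) (by norm_num)
  omega

end Main

end Fermat.Agent.S21.E2
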