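import Mathlib
import Fermat.Prelude.Def_ModularCurve_PeriodMap
import Fermat.Prelude.Def_ModularCurve_GenusNumerics
import Fermat.Agent.S21.H10_ParBound

/-!
# S21, package E2: `dim parabolicHoms ℂ (Γ₀(N)) ℂ ≤ 2 * genusFormula N`

Specialisation of `Fermat.Agent.S21.E2.generic_bound` to `G = SL(2, ℤ)`, `Γ = Γ₀(N)`,
`z = -1`, the standard generators `S`, `T`, and the prelude's space of parabolic homomorphisms.
-/

set_option autoImplicit false

open Module
open scoped MatrixGroups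
open CongruenceSubgroup ModularCurve ModularCurve.Period

namespace Fermat.Agent.S21.E2

theorem sl2_S_sq : (ModularGroup.S : SL(2, ℤ)) ^ 2 = -1 := by decide

theorem sl2_ST_cube : ((ModularGroup.S * ModularGroup.T : SL(2, ℤ))) ^ 3 = -1 := by decide

theorem sl2_neg_one_mem (N : ℕ) : (-1 : SL(2, ℤ)) ∈ Gamma0 N := by
  rw [Gamma0_mem]
  simp

theorem sl2_neg_one_central (g : SL(2, ℤ)) : g * (-1) = (-1) * g := by
  rw [mul_neg, neg_mul, mul_one, one_mul]

theorem sl2_trace_conj_T_pow (n : ℕ) (g : SL(2, ℤ)) :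
    ((g⁻¹ * ModularGroup.T ^ n * g : SL(2, ℤ)) : Matrix (Fin 2) (Fin 2) ℤ).trace = 2 := by
  rw [Matrix.SpecialLinearGroup.coe_mul, Matrix.SpecialLinearGroup.coe_mul,
    Matrix.trace_mul_cycle, ← Matrix.SpecialLinearGroup.coe_mul, mul_inv_cancel,
    Matrix.SpecialLinearGroup.coe_one, one_mul, ← zpow_natCast, ModularGroup.coe_T_zpow,
    Matrix.trace_fin_two]
  simp

theorem parabolicHoms_neg_one (N : ℕ) (φ : Additive (Gamma0 N) →+ ℂ)
    (hφ : φ ∈ parabolicHoms ℂ (Gamma0 N) ℂ) :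
    φ (Additive.ofMul ⟨-1, sl2_neg_one_mem N⟩) = 0 := by
  apply hφ
  show ((-1 : SL(2, ℤ)) : Matrix (Fin 2) (Fin 2) ℤ).trace ^ 2 = 4
  rw [Matrix.SpecialLinearGroup.coe_neg, Matrix.SpecialLinearGroup.coe_one, Matrix.trace_neg,
    Matrix.trace_one]
  simp

theorem parabolicHoms_conj_T (N : ℕ) (φ : Additive (Gamma0 N) →+ ℂ)
    (hφ : φ ∈ parabolicHoms ℂ (Gamma0 N) ℂ) (n : ℕ) (g : SL(2, ℤ))
    (h : g⁻¹ * ModularGroup.T ^ n * g ∈ Gamma0 N) :
    φ (Additive.ofMul ⟨_, h⟩) = 0 := by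
  apply hφ
  show ((g⁻¹ * ModularGroup.T ^ n * g : SL(2, ℤ)) : Matrix (Fin 2) (Fin 2) ℤ).trace ^ 2 = 4
  rw [sl2_trace_conj_T_pow]
  norm_num

theorem sl2_generic (N : ℕ) [NeZero N] :
    FiniteDimensional ℂ (parabolicHoms ℂ (Gamma0 N) ℂ) ∧
    finrank ℂ (parabolicHoms ℂ (Gamma0 N) ℂ)
      + Nat.card (MulAction.orbitRel.Quotient (Subgroup.zpowers ModularGroup.S)
          (SL(2, ℤ) ⧸ Gamma0 N))
      + Nat.card (MulAction.orbitRel.Quotient
          (Subgroup.zpowers (ModularGroup.S * ModularGroup.T)) (SL(2, ℤ) ⧸ Gamma0 N))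
      + Nat.card (MulAction.orbitRel.Quotient (Subgroup.zpowers ModularGroup.T)
          (SL(2, ℤ) ⧸ Gamma0 N))
      ≤ Nat.card (SL(2, ℤ) ⧸ Gamma0 N) + 2 :=
  generic_bound (Gamma0 N) ModularGroup.S ModularGroup.T (-1)
    SpecialLinearGroup.SL2Z_generators (sl2_neg_one_mem N) sl2_neg_one_central
    sl2_S_sq sl2_ST_cube ℂ (parabolicHoms ℂ (Gamma0 N) ℂ)
    (parabolicHoms_neg_one N) (parabolicHoms_conj_T N)

/-- (SL2-a) The space of parabolic homomorphisms of `Γ₀(N)` is finite dimensional. -/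
theorem finiteDimensional_parabolicHoms (N : ℕ) [NeZero N] :
    FiniteDimensional ℂ (parabolicHoms ℂ (Gamma0 N) ℂ) :=
  (sl2_generic N).1

/-- (SL2-b) The upper bound in terms of orbit counts on `SL(2, ℤ) ⧸ Γ₀(N)`. -/
theorem finrank_parabolicHoms_add_le (N : ℕ) [NeZero N] :
    finrank ℂ (parabolicHoms ℂ (Gamma0 N) ℂ)
      + Nat.card (MulAction.orbitRel.Quotient (Subgroup.zpowers ModularGroup.S)
          (SL(2, ℤ) ⧸ Gamma0 N))
      + Nat.card (MulAction.orbitRel.Quotient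
          (Subgroup.zpowers (ModularGroup.S * ModularGroup.T)) (SL(2, ℤ) ⧸ Gamma0 N))
      + Nat.card (MulAction.orbitRel.Quotient (Subgroup.zpowers ModularGroup.T)
          (SL(2, ℤ) ⧸ Gamma0 N))
      ≤ Nat.card (SL(2, ℤ) ⧸ Gamma0 N) + 2 :=
  (sl2_generic N).2

/-- (SL2-c) Final form, given the combinatorial count (package COMB of S24). -/
theorem finrank_parabolicHoms_le (N : ℕ) [NeZero N]
    (hcomb : ((Nat.card (SL(2, ℤ) ⧸ Gamma0 N) : ℚ)
      - Nat.card (MulAction.orbitRel.Quotient (Subgroup.zpowers ModularGroup.S)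
          (SL(2, ℤ) ⧸ Gamma0 N))
      - Nat.card (MulAction.orbitRel.Quotient
          (Subgroup.zpowers (ModularGroup.S * ModularGroup.T)) (SL(2, ℤ) ⧸ Gamma0 N))
      - Nat.card (MulAction.orbitRel.Quotient (Subgroup.zpowers ModularGroup.T)
          (SL(2, ℤ) ⧸ Gamma0 N)))
      = 2 * genusFormula N - 2) :
    (finrank ℂ (parabolicHoms ℂ (Gamma0 N) ℂ) : ℚ) ≤ 2 * genusFormula N := by
  have h := finrank_parabolicHoms_add_le N
  have h' : ((finrank ℂ (parabolicHoms ℂ (Gamma0 N) ℂ) : ℕ) : ℚ)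
      + Nat.card (MulAction.orbitRel.Quotient (Subgroup.zpowers ModularGroup.S)
          (SL(2, ℤ) ⧸ Gamma0 N))
      + Nat.card (MulAction.orbitRel.Quotient
          (Subgroup.zpowers (ModularGroup.S * ModularGroup.T)) (SL(2, ℤ) ⧸ Gamma0 N))
      + Nat.card (MulAction.orbitRel.Quotient (Subgroup.zpowers ModularGroup.T)
          (SL(2, ℤ) ⧸ Gamma0 N))
      ≤ Nat.card (SL(2, ℤ) ⧸ Gamma0 N) + 2 := by exact_mod_cast h
  linarith

end Fermat.Agent.S21.E2
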