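import Fermat.Agent.S23.H19_DescentForms

/-!
# S21 [FD] (helper19): spaces of cusp forms on `Γ₀(N)` are finite-dimensional

From the injectivity of the Sturm truncation `Fermat.Agent.S23.D.truncQ`.
-/

set_option autoImplicit false

open CongruenceSubgroup

namespace Fermat.Agent.S21

/-- `S_k(Γ₀(N))` is finite-dimensional (any weight). -/
theorem h19_finiteDimensional_cuspForm_weight (N : ℕ) [NeZero N] (k : ℤ) :
    FiniteDimensional ℂ (CuspForm (Gamma0 N) k) :=
  FiniteDimensional.of_injective (Fermat.Agent.S23.D.truncQ N k)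
    (Fermat.Agent.S23.D.truncQ_injective N k)

/-- `S_2(Γ₀(N))` is finite-dimensional. -/
theorem h19_finiteDimensional_cuspForm (N : ℕ) [NeZero N] :
    FiniteDimensional ℂ (CuspForm (Gamma0 N) 2) :=
  h19_finiteDimensional_cuspForm_weight N 2

/-- Dimension bound by the Sturm bound. -/
theorem h19_finrank_cuspForm_le (N : ℕ) [NeZero N] (k : ℤ) :
    Module.finrank ℂ (CuspForm (Gamma0 N) k) ≤ Fermat.Agent.S23.D.sturmB N k + 1 := by
  have h := LinearMap.finrank_le_finrank_of_injective (Fermat.Agent.S23.D.truncQ_injective N k)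
  rwa [Module.finrank_fintype_fun_eq_card, Fintype.card_fin] at h

end Fermat.Agent.S21
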