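import Fermat.Agent.S22.Separation
import Fermat.Prelude.Def_ModularCurve_PeriodHomPair

/-!
# S21, part E1/E3 (helper5): the equivariant primitive of a weight two cusp form

Every cusp form `f` of weight two on `Γ₀(N)` has an equivariant primitive in the sense of the
prelude (`ModularCurve.HasEquivariantPrimitive`), namely the Eichler integral of order zero of
the S22 library.  The primitive is unique, so the prelude's `periodMap` is computed by it, and
`periodMap` is linear.
-/

set_option autoImplicit false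

namespace Fermat.Agent.S21.E1

open UpperHalfPlane Complex Polynomial CongruenceSubgroup Filter Topology
open ModularCurve ModularCurve.Period
open Fermat.Agent.S22

open scoped MatrixGroups ModularForm

variable {N : ℕ}

/-- The normalised primitive of a function on the upper half plane. -/
noncomputable def prim (f : ℍ → ℂ) : ℍ → ℂ := fun τ => eich f 0 (τ : ℂ)

lemma prim_apply (f : ℍ → ℂ) (τ : ℍ) : prim f τ = eich f 0 (τ : ℂ) := rfl

lemma hasDerivAt_prim {f : ℍ → ℂ} (hf : GoodH f) (τ : ℍ) :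
    HasDerivAt (prim f ∘ ofComplex) (f τ) ↑τ := by
  have h := hasDerivAt_eich_zero hf (coe_mem_UHP τ)
  rw [toC_coe] at h
  refine h.congr_of_eventuallyEq ?_
  filter_upwards [isOpen_UHP.mem_nhds (coe_mem_UHP τ)] with z hz
  simp [prim, Function.comp, ofComplex_apply_of_im_pos (mem_UHP.mp hz)]

lemma prim_add {f g : ℍ → ℂ} (hf : GoodH f) (hg : GoodH g) (τ : ℍ) :
    prim (f + g) τ = prim f τ + prim g τ := by
  unfold prim eich
  exact nprim_pf_add_fun hf hg _ (coe_mem_UHP τ)

lemma prim_smul {f : ℍ → ℂ} (hf : GoodH f) (c : ℂ) (τ : ℍ) :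
    prim (c • f) τ = c * prim f τ := by
  unfold prim eich
  exact nprim_pf_smul_fun hf c _ (coe_mem_UHP τ)

lemma cuspForm_periodic (f : CuspForm (Gamma0 N) 2) (τ : ℍ) : f ((1 : ℝ) +ᵥ τ) = f τ :=
  SlashInvariantForm.vAdd_apply_of_mem_strictPeriods f τ
    (CongruenceSubgroup.one_mem_strictPeriods_Gamma0 N)

lemma tendsto_prim_zero (f : CuspForm (Gamma0 N) 2) : Tendsto (prim f) atImInfty (𝓝 0) :=
  eich_tendsto_zero (goodH_cuspForm f) 0 one_pos (cuspForm_periodic f)

lemma isEquivariantPrimitive_prim (f : CuspForm (Gamma0 N) 2) :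
    IsEquivariantPrimitive (Gamma0 N) (prim f) := by
  intro γ
  have hf := goodH_cuspForm f
  have hslash : ∀ τ : ℍ, (f : ℍ → ℂ) ((γ : SL(2, ℤ)) • τ)
      = denS (γ : SL(2, ℤ)) τ ^ (0 + 2) * f τ := by
    intro τ
    have := cuspForm_smul_eq f γ.2 τ
    rw [this]
    norm_cast
  obtain ⟨R, hR, hRz⟩ := eich_translate hf hf (m := 0) (γ : SL(2, ℤ)) hslash
  refine ⟨R.coeff 0, fun z => ?_⟩
  have h1 := hRz z (coe_mem_UHP z)
  rw [pow_zero, one_mul, Polynomial.eq_C_of_natDegree_le_zero hR, eval_C] at h1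
  rw [prim_apply, prim_apply, coe_smul_eq_mobS, h1]
  simp

lemma exists_tendsto_prim_smul [NeZero N] (f : CuspForm (Gamma0 N) 2) (σ : SL(2, ℤ)) :
    ∃ L : ℂ, Tendsto (fun w : ℍ => prim f (σ • w)) atImInfty (𝓝 L) := by
  obtain ⟨M, hM, hconj⟩ := Subgroup.IsArithmetic.exists_nat_mem_strictPeriods_conj
    ((Gamma0 N : Subgroup SL(2, ℤ)) : Subgroup (GL (Fin 2) ℝ))
  have hMσ := hconj σ⁻¹
  rw [map_inv] at hMσ
  have hMpos : (0 : ℝ) < M := by exact_mod_cast hM
  set f' : CuspForm _ 2 :=
    CuspForm.translate f (Matrix.SpecialLinearGroup.mapGL ℝ σ) with hf'def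
  have hf'coe : (f' : ℍ → ℂ) = (f : ℍ → ℂ) ∣[(2 : ℤ)] σ := rfl
  have hf : GoodH (f : ℍ → ℂ) := goodH_cuspForm f
  have hf' : GoodH (f' : ℍ → ℂ) := goodH_of_cuspForm f' hMpos hMσ
  have hperf' : ∀ τ : ℍ, f' ((M : ℝ) +ᵥ τ) = f' τ := fun τ =>
    SlashInvariantForm.vAdd_apply_of_mem_strictPeriods f' τ hMσ
  have hslash : ∀ τ : ℍ, (f : ℍ → ℂ) (σ • τ) = denS σ τ ^ (0 + 2) * (f' : ℍ → ℂ) τ := by
    intro τ
    rw [hf'coe]
    have := slash_translate_eq f 0 σ τ
    simpa using this
  obtain ⟨R, hR, hRz⟩ := eich_translate hf hf' (m := 0) σ hslash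
  refine ⟨0 + R.coeff 0, ?_⟩
  have hlim := (eich_tendsto_zero hf' 0 hMpos hperf').add
    (tendsto_const_nhds (x := R.coeff 0) (f := atImInfty))
  refine hlim.congr fun τ => ?_
  have h1 := hRz τ (coe_mem_UHP τ)
  rw [pow_zero, one_mul, Polynomial.eq_C_of_natDegree_le_zero hR, eval_C] at h1
  rw [prim_apply, coe_smul_eq_mobS, h1]

/-- **P0.** Every weight two cusp form on `Γ₀(N)` has an equivariant primitive. -/
theorem hasEquivariantPrimitive_prim [NeZero N] (f : CuspForm (Gamma0 N) 2) :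
    HasEquivariantPrimitive N f (prim f) :=
  ⟨hasDerivAt_prim (goodH_cuspForm f), tendsto_prim_zero f, isEquivariantPrimitive_prim f,
    exists_tendsto_prim_smul f⟩

/-- Equivariant primitives are unique. -/
theorem eq_of_hasEquivariantPrimitive {f : CuspForm (Gamma0 N) 2} {F G : ℍ → ℂ}
    (hF : HasEquivariantPrimitive N f F) (hG : HasEquivariantPrimitive N f G) : F = G := by
  have h1 : ∀ z ∈ UHP, HasDerivAt (F ∘ ofComplex) (toC f z) z := fun z hz => by
    have := hF.1 ⟨z, hz⟩
    rwa [toC_apply f hz]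
  have h2 : ∀ z ∈ UHP, HasDerivAt (G ∘ ofComplex) (toC f z) z := fun z hz => by
    have := hG.1 ⟨z, hz⟩
    rwa [toC_apply f hz]
  have hconst : ∀ τ : ℍ, F τ - G τ = F UpperHalfPlane.I - G UpperHalfPlane.I := by
    intro τ
    have := eqOn_of_hasDerivAt_UHP h1 h2 (coe_mem_UHP τ) (coe_mem_UHP UpperHalfPlane.I)
    simp only [Function.comp, ofComplex_apply] at this
    exact this
  have hlim : Tendsto (fun τ : ℍ => F τ - G τ) atImInfty (𝓝 (0 - 0)) := hF.2.1.sub hG.2.1
  have hc : Tendsto (fun _ : ℍ => F UpperHalfPlane.I - G UpperHalfPlane.I) atImInfty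
      (𝓝 (0 - 0)) := hlim.congr hconst
  have h0 := tendsto_nhds_unique hc tendsto_const_nhds
  funext τ
  have := hconst τ
  rw [← h0, sub_zero] at this
  exact sub_eq_zero.mp this

/-- The prelude's period map is computed by the normalised primitive. -/
theorem periodMap_apply [NeZero N] (f : CuspForm (Gamma0 N) 2) (γ : Gamma0 N) :
    periodMap N f (Additive.ofMul γ)
      = prim f ((γ : SL(2, ℤ)) • UpperHalfPlane.I) - prim f UpperHalfPlane.I := by
  obtain ⟨F₀, h₀, hp⟩ := periodMap_def N f (hasEquivariantPrimitive_prim f)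
  have hF : F₀ = prim f := eq_of_hasEquivariantPrimitive h₀ (hasEquivariantPrimitive_prim f)
  subst hF
  rw [hp]
  rfl

/-- The period of `f` along `γ` is the jump of the primitive at any point. -/
theorem prim_smul_sub [NeZero N] (f : CuspForm (Gamma0 N) 2) (γ : Gamma0 N) (z : ℍ) :
    prim f ((γ : SL(2, ℤ)) • z) - prim f z = periodMap N f (Additive.ofMul γ) := by
  rw [periodMap_apply]
  have h := isEquivariantPrimitive_prim f
  rw [h.sub_eq_period γ z]
  rfl

lemma coe_add_cuspForm (f g : CuspForm (Gamma0 N) 2) :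
    ((f + g : CuspForm (Gamma0 N) 2) : ℍ → ℂ) = (f : ℍ → ℂ) + g := rfl

lemma coe_smul_cuspForm (c : ℂ) (f : CuspForm (Gamma0 N) 2) :
    ((c • f : CuspForm (Gamma0 N) 2) : ℍ → ℂ) = c • (f : ℍ → ℂ) := rfl

lemma prim_add_cuspForm (f g : CuspForm (Gamma0 N) 2) (τ : ℍ) :
    prim (f + g : CuspForm (Gamma0 N) 2) τ = prim f τ + prim g τ := by
  rw [coe_add_cuspForm]
  exact prim_add (goodH_cuspForm f) (goodH_cuspForm g) τ

lemma prim_smul_cuspForm (c : ℂ) (f : CuspForm (Gamma0 N) 2) (τ : ℍ) :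
    prim (c • f : CuspForm (Gamma0 N) 2) τ = c * prim f τ := by
  rw [coe_smul_cuspForm]
  exact prim_smul (goodH_cuspForm f) c τ

/-- The period map, as a linear map. -/
noncomputable def pml (N : ℕ) [NeZero N] :
    CuspForm (Gamma0 N) 2 →ₗ[ℂ] (Additive (Gamma0 N) →+ ℂ) where
  toFun := periodMap N
  map_add' f g := by
    refine AddMonoidHom.ext fun γ => ?_
    have e : γ = Additive.ofMul (Additive.toMul γ) := rfl
    rw [AddMonoidHom.add_apply, e, periodMap_apply, periodMap_apply, periodMap_apply,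
      prim_add_cuspForm, prim_add_cuspForm]
    ring
  map_smul' c f := by
    refine AddMonoidHom.ext fun γ => ?_
    have e : γ = Additive.ofMul (Additive.toMul γ) := rfl
    rw [RingHom.id_apply, AddMonoidHom.smul_apply, e, periodMap_apply, periodMap_apply,
      prim_smul_cuspForm, prim_smul_cuspForm, smul_eq_mul]
    ring

@[simp] lemma pml_apply (N : ℕ) [NeZero N] (f : CuspForm (Gamma0 N) 2) :
    pml N f = periodMap N f := rfl

/-- The prelude's linearity hypothesis on the period map holds. -/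
theorem existsPeriodMapLinear (N : ℕ) [NeZero N] : ExistsPeriodMapLinear N :=
  ⟨pml N, fun _ => rfl⟩

/-- Explicit formula for the prelude's `periodHomPair`. -/
theorem periodHomPair_apply (N : ℕ) [NeZero N] (f g : CuspForm (Gamma0 N) 2) (γ : Gamma0 N) :
    periodHomPair N (f, g) (Additive.ofMul γ)
      = (periodMap N f (Additive.ofMul γ)
          + periodMap N f (Additive.ofMul (jConjGamma0 N γ)))
        + (periodMap N g (Additive.ofMul γ)
          - periodMap N g (Additive.ofMul (jConjGamma0 N γ))) := by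
  obtain ⟨p, hp, hpair⟩ := periodHomPair_def N (existsPeriodMapLinear N)
  rw [hpair]
  simp only [LinearMap.coprod_apply, LinearMap.comp_apply, LinearMap.add_apply,
    LinearMap.sub_apply, LinearMap.id_apply, hp, AddMonoidHom.add_apply, AddMonoidHom.sub_apply,
    charInvolution_apply]
  rfl

end Fermat.Agent.S21.E1
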