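import Fermat.Agent.S22.Prim

/-!
# S21, part E1 (helper5): a maximum principle on `Γ₀(N) \ ℍ`

A holomorphic function `E` on the upper half plane whose absolute value is invariant under
`Γ₀(N)`, which is periodic and bounded in the coordinate at every cusp, is constant.  The same
holds for a holomorphic function `C` whose real part is invariant and which has a limit at every
cusp (apply the first statement to `exp ∘ C`).
-/

set_option autoImplicit false

namespace Fermat.Agent.S21.E1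

open UpperHalfPlane Complex CongruenceSubgroup Filter Topology Function Metric
open Fermat.Agent.S22

open scoped MatrixGroups ModularForm Manifold

lemma periodic_comp_ofComplex_of_vadd {f : ℍ → ℂ} {t : ℝ}
    (hper : ∀ w : ℍ, f (t +ᵥ w) = f w) : Periodic (f ∘ ofComplex) (t : ℂ) := by
  intro w
  by_cases hw : 0 < im w
  · have hw' : 0 < im (w + t) := by simpa using hw
    simp only [comp_apply, ofComplex_apply_of_im_pos hw', ofComplex_apply_of_im_pos hw]
    rw [← hper ⟨w, hw⟩]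
    congr 1
    ext
    simp [add_comm]
  · have hw0 : im w ≤ 0 := not_lt.mp hw
    have hw' : im (w + t) ≤ 0 := by simpa using hw0
    simp [ofComplex_apply_of_im_nonpos hw', ofComplex_apply_of_im_nonpos hw0]

lemma norm_qParam_le_of_half_le {t : ℝ} (ht : 0 < t) {w : ℍ} (hw : 1 / 2 ≤ w.im) :
    ‖Periodic.qParam t (w : ℂ)‖ ≤ Real.exp (-Real.pi / t) := by
  rw [Periodic.norm_qParam, Real.exp_le_exp]
  have h1 : -2 * Real.pi * w.im ≤ -Real.pi := by
    nlinarith [Real.pi_pos]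
  have := div_le_div_of_nonneg_right h1 ht.le
  simpa using this

/-- **Maximum principle, multiplicative form.** -/
theorem const_of_norm_invariant (N : ℕ) [NeZero N] (E : ℍ → ℂ) (hol : MDiff E)
    (hinv : ∀ γ ∈ Gamma0 N, ∀ z : ℍ, ‖E (γ • z)‖ = ‖E z‖)
    (hper : ∀ δ : SL(2, ℤ), ∀ w : ℍ, E (δ • ((N : ℝ) +ᵥ w)) = E (δ • w))
    (hbd : ∀ δ : SL(2, ℤ), IsBoundedAtImInfty (fun w : ℍ => E (δ • w))) :
    ∀ z w : ℍ, E z = E w := by
  classical
  have hN : (0 : ℝ) < (N : ℝ) := by exact_mod_cast Nat.pos_of_ne_zero (NeZero.ne N)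
  have hperC : ∀ δ : SL(2, ℤ), Periodic ((fun w : ℍ => E (δ • w)) ∘ ofComplex) ((N : ℝ) : ℂ) :=
    fun δ => periodic_comp_ofComplex_of_vadd (hper δ)
  have hholδ : ∀ δ : SL(2, ℤ), MDiff (fun w : ℍ => E (δ • w)) := fun δ =>
    hol.comp (mdifferentiable_smul (g := Matrix.SpecialLinearGroup.mapGL ℝ δ) (by simp))
  set g : SL(2, ℤ) → ℂ → ℂ := fun δ => UpperHalfPlane.cuspFunction (N : ℝ) (fun w : ℍ => E (δ • w))
    with hg
  have hgdiff : ∀ δ, DifferentiableOn ℂ (g δ) (ball 0 1) := fun δ =>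
    differentiableOn_cuspFunction_ball hN (hperC δ) (hholδ δ) (hbd δ)
  have hgeq : ∀ (δ : SL(2, ℤ)) (w : ℍ), g δ (Periodic.qParam (N : ℝ) w) = E (δ • w) := fun δ w =>
    eq_cuspFunction w hN.ne' (hperC δ)
  set r : ℝ := Real.exp (-Real.pi / N) with hr
  have hr0 : 0 ≤ r := (Real.exp_pos _).le
  have hr1 : r < 1 := by
    rw [hr, Real.exp_lt_one_iff]
    exact div_neg_of_neg_of_pos (neg_lt_zero.mpr Real.pi_pos) hN
  -- representatives of the finitely many cosets
  set δ : SL(2, ℤ) ⧸ Gamma0 N → SL(2, ℤ) := fun x => (x.out)⁻¹ with hδ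
  have hmax : ∀ x : SL(2, ℤ) ⧸ Gamma0 N, ∃ q ∈ closedBall (0 : ℂ) r,
      ∀ q' ∈ closedBall (0 : ℂ) r, ‖g (δ x) q'‖ ≤ ‖g (δ x) q‖ := by
    intro x
    obtain ⟨q, hq, hqmax⟩ := (isCompact_closedBall (0 : ℂ) r).exists_isMaxOn
      (nonempty_closedBall.mpr hr0)
      ((hgdiff (δ x)).continuousOn.mono (closedBall_subset_ball hr1)).norm
    exact ⟨q, hq, fun q' hq' => hqmax hq'⟩
  choose qm hqm hqmax using hmax
  obtain ⟨x₀, hx₀⟩ := Finite.exists_max (fun x : SL(2, ℤ) ⧸ Gamma0 N => ‖g (δ x) (qm x)‖)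
  have hbound : ∀ z : ℍ, ‖E z‖ ≤ ‖g (δ x₀) (qm x₀)‖ := by
    intro z
    obtain ⟨γ, hγ⟩ := ModularGroup.exists_one_half_le_im_smul z
    obtain ⟨h, hh⟩ := QuotientGroup.mk_out_eq_mul (Gamma0 N) γ
    have hz : z = (h : SL(2, ℤ)) • (δ (QuotientGroup.mk γ) • (γ • z)) := by
      simp only [hδ, hh, mul_inv_rev, ← mul_smul]
      simp
    calc ‖E z‖ = ‖E ((h : SL(2, ℤ)) • (δ (QuotientGroup.mk γ) • (γ • z)))‖ := by rw [← hz]
      _ = ‖E (δ (QuotientGroup.mk γ) • (γ • z))‖ := hinv h h.2 _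
      _ = ‖g (δ (QuotientGroup.mk γ)) (Periodic.qParam (N : ℝ) (γ • z : ℍ))‖ := by rw [hgeq]
      _ ≤ ‖g (δ (QuotientGroup.mk γ)) (qm (QuotientGroup.mk γ))‖ :=
          hqmax _ _ (mem_closedBall_zero_iff.mpr (norm_qParam_le_of_half_le hN hγ))
      _ ≤ ‖g (δ x₀) (qm x₀)‖ := hx₀ _
  have hle : ∀ q ∈ ball (0 : ℂ) 1, ∃ w ∈ closedBall (0 : ℂ) r, ‖g (δ x₀) q‖ ≤ ‖g (δ x₀) w‖ := by
    intro q hq
    refine ⟨qm x₀, hqm x₀, ?_⟩
    rcases eq_or_ne q 0 with rfl | hq0
    · exact hqmax x₀ 0 (mem_closedBall_self hr0)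
    · have him := Periodic.im_invQParam_pos_of_norm_lt_one hN (mem_ball_zero_iff.mp hq) hq0
      have h1 := hgeq (δ x₀) ⟨Periodic.invQParam (N : ℝ) q, him⟩
      rw [UpperHalfPlane.coe_mk, Periodic.qParam_right_inv hN.ne' hq0] at h1
      rw [h1]
      exact hbound _
  have hconst := Complex.eq_const_of_exists_le (hgdiff (δ x₀)) hr0 hr1 hle
  have hE : ∀ w : ℍ, E (δ x₀ • w) = g (δ x₀) 0 := by
    intro w
    rw [← hgeq]
    exact hconst (mem_ball_zero_iff.mpr (Periodic.norm_qParam_lt_one hN w.im_pos))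
  have hE' : ∀ z : ℍ, E z = g (δ x₀) 0 := by
    intro z
    have := hE ((δ x₀)⁻¹ • z)
    rwa [smul_inv_smul] at this
  intro z w
  rw [hE' z, hE' w]

/-- If `exp ∘ C` is constant for a holomorphic `C`, then `C` is constant. -/
lemma const_of_exp_const {C : ℍ → ℂ} (hol : MDiff C)
    (h : ∀ z w : ℍ, Complex.exp (C z) = Complex.exp (C w)) : ∀ z w : ℍ, C z = C w := by
  rw [UpperHalfPlane.mdifferentiable_iff] at hol
  have hd : ∀ z ∈ UHP, HasDerivAt (C ∘ ofComplex) 0 z := by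
    intro z hz
    have h1 : HasDerivAt (C ∘ ofComplex) (deriv (C ∘ ofComplex) z) z :=
      ((hol z hz).differentiableAt (isOpen_UHP.mem_nhds hz)).hasDerivAt
    have h2 := h1.cexp
    have h3 : HasDerivAt (fun _ : ℂ => Complex.exp (C UpperHalfPlane.I))
        (Complex.exp ((C ∘ ofComplex) z) * deriv (C ∘ ofComplex) z) z := by
      refine h2.congr_of_eventuallyEq ?_
      filter_upwards [isOpen_UHP.mem_nhds hz] with w hw
      simp only [comp_apply]
      exact h _ _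
    have h4 := h3.unique (hasDerivAt_const z _)
    have h5 : deriv (C ∘ ofComplex) z = 0 :=
      (mul_eq_zero.mp h4).resolve_left (Complex.exp_ne_zero _)
    rwa [h5] at h1
  intro z w
  have := const_of_hasDerivAt_zero_UHP hd z.im_pos w.im_pos
  simpa using this

/-- **Maximum principle, additive form.** -/
theorem const_of_re_invariant (N : ℕ) [NeZero N] (C : ℍ → ℂ) (hol : MDiff C)
    (hinv : ∀ γ ∈ Gamma0 N, ∀ z : ℍ, (C (γ • z)).re = (C z).re)
    (hper : ∀ δ : SL(2, ℤ), ∀ w : ℍ, C (δ • ((N : ℝ) +ᵥ w)) = C (δ • w))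
    (hlim : ∀ δ : SL(2, ℤ), ∃ L : ℂ, Tendsto (fun w : ℍ => C (δ • w)) atImInfty (𝓝 L)) :
    ∀ z w : ℍ, C z = C w := by
  apply const_of_exp_const hol
  apply const_of_norm_invariant N (fun z => Complex.exp (C z))
  · rw [UpperHalfPlane.mdifferentiable_iff] at hol ⊢
    exact hol.cexp
  · intro γ hγ z
    rw [Complex.norm_exp, Complex.norm_exp, hinv γ hγ z]
  · intro δ w
    exact congrArg Complex.exp (hper δ w)
  · intro δ
    obtain ⟨L, hL⟩ := hlim δ
    have : Tendsto (fun w : ℍ => Complex.exp (C (δ • w))) atImInfty (𝓝 (Complex.exp L)) :=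
      (Complex.continuous_exp.tendsto L).comp hL
    exact this.isBigO_one ℝ

end Fermat.Agent.S21.E1
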