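import Fermat.Agent.S21.H5_Parabolic
import Fermat.Agent.S21.H5_MaxPrinciple

/-!
# S21, part E1 (helper5): injectivity of `periodHomPair`

If `periodHomPair N (f, g) = 0`, then with `a = f + g`, `b = f - g` the function
`u = F_a + F_b ∘ ι` (`ι z = -z̄`) is `Γ₀(N)`-invariant.  Writing `B = conj ∘ F_b ∘ ι`
(holomorphic), the holomorphic functions `F_a + B` and `-i (F_a - B)` have `Γ₀(N)`-invariant real
parts, hence are constant by the maximum principle; so `a = b = 0`.
-/

set_option autoImplicit false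

namespace Fermat.Agent.S21.E1

open UpperHalfPlane Complex CongruenceSubgroup Filter Topology Function
open ModularCurve ModularCurve.Period
open Fermat.Agent.S22

open scoped MatrixGroups ModularForm Manifold ComplexConjugate

variable {N : ℕ}

/-! ### The reflection `z ↦ -z̄` -/

/-- The reflection `z ↦ -z̄` of the upper half plane. -/
noncomputable def refl (z : ℍ) : ℍ := ⟨-conj (z : ℂ), by simpa using z.im_pos⟩

@[simp] lemma coe_refl (z : ℍ) : ((refl z : ℍ) : ℂ) = -conj (z : ℂ) := rfl

@[simp] lemma refl_refl (z : ℍ) : refl (refl z) = z := by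
  apply UpperHalfPlane.ext
  simp

@[simp] lemma im_refl (z : ℍ) : (refl z).im = z.im := by
  rw [← UpperHalfPlane.coe_im, coe_refl]
  simp

lemma refl_smul (δ : SL(2, ℤ)) (z : ℍ) : refl (δ • z) = (jConjSL δ) • refl z := by
  apply UpperHalfPlane.ext
  rw [coe_refl, coe_smul_eq_mobS, coe_smul_eq_mobS, coe_refl]
  unfold mobS mob
  simp only [jConjSL_coe, jConjMat_apply_zero_zero, jConjMat_apply_zero_one,
    jConjMat_apply_one_zero, jConjMat_apply_one_one, map_div₀, map_add, map_mul, conj_ofReal]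
  push_cast
  rw [← neg_div]
  congr 1 <;> ring

lemma refl_vadd (t : ℝ) (w : ℍ) : refl (t +ᵥ w) = (-t) +ᵥ refl w := by
  apply UpperHalfPlane.ext
  simp only [coe_refl, UpperHalfPlane.coe_vadd, map_add, conj_ofReal]
  push_cast
  ring

lemma tendsto_refl_atImInfty : Tendsto refl atImInfty atImInfty := by
  rw [atImInfty, tendsto_comap_iff]
  have : (UpperHalfPlane.im ∘ refl) = UpperHalfPlane.im := by
    funext w
    simp
  rw [this]
  exact tendsto_comap

lemma refl_ofComplex {z : ℂ} (hz : z ∈ UHP) : refl (ofComplex z) = ofComplex (-conj z) := by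
  have hz0 : 0 < z.im := mem_UHP.mp hz
  have hz' : 0 < (-conj z).im := by simpa using hz0
  apply UpperHalfPlane.ext
  rw [coe_refl, ofComplex_apply_of_im_pos hz0, ofComplex_apply_of_im_pos hz']

/-! ### Membership of conjugates of translations -/

lemma conj_T_zpow_mem (N : ℕ) (δ : SL(2, ℤ)) (k : ℤ) :
    δ * ModularGroup.T ^ ((N : ℤ) * k) * δ⁻¹ ∈ Gamma0 N := by
  rw [Gamma0_mem]
  have hinv : ((δ⁻¹ : SL(2, ℤ)) : Matrix (Fin 2) (Fin 2) ℤ)
      = !![δ 1 1, -δ 0 1; -δ 1 0, δ 0 0] := by
    rw [Matrix.SpecialLinearGroup.SL2_inv_expl]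
    rfl
  have e : ((δ * ModularGroup.T ^ ((N : ℤ) * k) * δ⁻¹ : SL(2, ℤ)) : Matrix (Fin 2) (Fin 2) ℤ) 1 0
      = (N : ℤ) * (-(k * δ 1 0 ^ 2)) := by
    rw [Matrix.SpecialLinearGroup.coe_mul, Matrix.SpecialLinearGroup.coe_mul, hinv,
      ModularGroup.coe_T_zpow]
    simp only [Matrix.mul_apply, Fin.sum_univ_two, Matrix.of_apply, Matrix.cons_val',
      Matrix.cons_val_zero, Matrix.cons_val_one, Matrix.cons_val_fin_one]
    ring
  rw [e]
  push_cast
  simp

lemma conj_T_smul (δ : SL(2, ℤ)) (n : ℤ) (w : ℍ) :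
    (δ * ModularGroup.T ^ n * δ⁻¹) • (δ • w) = δ • (((n : ℤ) : ℝ) +ᵥ w) := by
  rw [← UpperHalfPlane.modular_T_zpow_smul, ← mul_smul, ← mul_smul]
  congr 1
  group

/-- The primitive of a cusp form is periodic of period `N k` in the coordinate at any cusp. -/
lemma prim_smul_vadd_level [NeZero N] (f : CuspForm (Gamma0 N) 2) (δ : SL(2, ℤ)) (k : ℤ)
    (w : ℍ) : prim f (δ • ((((N : ℤ) * k : ℤ) : ℝ) +ᵥ w)) = prim f (δ • w) :=
  prim_smul_vadd f ⟨_, conj_T_zpow_mem N δ k⟩ δ _ (fun w => conj_T_smul δ _ w) w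

/-! ### The class of functions to which the maximum principle applies -/

/-- Holomorphic functions on `ℍ` which, in the coordinate at every cusp, are periodic of periods
`± N` and have a limit. -/
structure Nice (N : ℕ) (C : ℍ → ℂ) : Prop where
  hol : MDiff C
  per : ∀ δ : SL(2, ℤ), ∀ w : ℍ, C (δ • ((N : ℝ) +ᵥ w)) = C (δ • w)
  lim : ∀ δ : SL(2, ℤ), ∃ L : ℂ, Tendsto (fun w : ℍ => C (δ • w)) atImInfty (𝓝 L)

lemma Nice.add {C₁ C₂ : ℍ → ℂ} (h₁ : Nice N C₁) (h₂ : Nice N C₂) :
    Nice N (fun z => C₁ z + C₂ z) where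
  hol := h₁.hol.add h₂.hol
  per δ w := by rw [h₁.per, h₂.per]
  lim δ := by
    obtain ⟨L₁, hL₁⟩ := h₁.lim δ
    obtain ⟨L₂, hL₂⟩ := h₂.lim δ
    exact ⟨L₁ + L₂, hL₁.add hL₂⟩

lemma Nice.const_mul {C : ℍ → ℂ} (h : Nice N C) (c : ℂ) : Nice N (fun z => c * C z) where
  hol := by
    have := h.hol
    rw [UpperHalfPlane.mdifferentiable_iff] at this ⊢
    exact this.const_mul c
  per δ w := by rw [h.per]
  lim δ := by
    obtain ⟨L, hL⟩ := h.lim δ
    exact ⟨c * L, hL.const_mul c⟩

lemma Nice.sub {C₁ C₂ : ℍ → ℂ} (h₁ : Nice N C₁) (h₂ : Nice N C₂) :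
    Nice N (fun z => C₁ z - C₂ z) := by
  have := h₁.add (h₂.const_mul (-1))
  simpa [sub_eq_add_neg] using this

lemma nice_prim [NeZero N] (f : CuspForm (Gamma0 N) 2) : Nice N (prim f) where
  hol := mdifferentiable_eichH (goodH_cuspForm f) 0
  per δ w := by
    have := prim_smul_vadd_level f δ 1 w
    simpa using this
  lim := exists_tendsto_prim_smul f

/-- The holomorphic function `z ↦ conj (F (-z̄))` attached to the primitive `F` of `f`. -/
noncomputable def cprim (f : ℍ → ℂ) : ℍ → ℂ := fun z => conj (prim f (refl z))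

lemma cprim_apply (f : ℍ → ℂ) (z : ℍ) : cprim f z = conj (prim f (refl z)) := rfl

lemma mdifferentiable_cprim {f : ℍ → ℂ} (hf : GoodH f) : MDiff (cprim f) := by
  have hF := mdifferentiable_eichH hf 0
  rw [UpperHalfPlane.mdifferentiable_iff] at hF ⊢
  intro z hz
  have hz' : 0 < (-conj z).im := by simpa using hz
  have h1 : DifferentiableAt ℂ (eichH f 0 ∘ ofComplex) (-conj z) :=
    (hF _ hz').differentiableAt (isOpen_UHP.mem_nhds hz')
  have h2 : DifferentiableAt ℂ ((eichH f 0 ∘ ofComplex) ∘ fun w : ℂ => -w) (conj z) :=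
    DifferentiableAt.comp (conj z) h1 differentiable_neg.differentiableAt
  have h3 := h2.conj_conj
  rw [Complex.conj_conj] at h3
  refine (h3.congr_of_eventuallyEq ?_).differentiableWithinAt
  filter_upwards [isOpen_UHP.mem_nhds hz] with w hw
  simp only [comp_apply, cprim, prim, eichH, refl_ofComplex hw]

lemma nice_cprim [NeZero N] (f : CuspForm (Gamma0 N) 2) : Nice N (cprim f) where
  hol := mdifferentiable_cprim (goodH_cuspForm f)
  per δ w := by
    rw [cprim_apply, cprim_apply, refl_smul, refl_smul, refl_vadd]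
    have := prim_smul_vadd_level f (jConjSL δ) (-1) (refl w)
    rw [show ((((N : ℤ) * (-1) : ℤ) : ℝ)) = -(N : ℝ) by push_cast; ring] at this
    rw [this]
  lim δ := by
    obtain ⟨L, hL⟩ := exists_tendsto_prim_smul f (jConjSL δ)
    refine ⟨conj L, ?_⟩
    have h1 := (Complex.continuous_conj.tendsto L).comp (hL.comp tendsto_refl_atImInfty)
    refine h1.congr fun w => ?_
    simp only [comp_apply, cprim_apply, refl_smul]

/-! ### Jumps -/

lemma cprim_smul_sub [NeZero N] (f : CuspForm (Gamma0 N) 2) (γ : Gamma0 N) (z : ℍ) :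
    cprim f ((γ : SL(2, ℤ)) • z) - cprim f z
      = conj (periodMap N f (Additive.ofMul (jConjGamma0 N γ))) := by
  rw [cprim_apply, cprim_apply, refl_smul, ← map_sub]
  congr 1
  exact prim_smul_sub f (jConjGamma0 N γ) (refl z)

/-! ### Injectivity -/

lemma eq_zero_of_prim_const (f : CuspForm (Gamma0 N) 2)
    (h : ∀ z w : ℍ, prim f z = prim f w) : f = 0 := by
  have h0 := eq_zero_of_eich_const (goodH_cuspForm f) 0 (fun z hz w hw => h ⟨z, hz⟩ ⟨w, hw⟩)
  ext τ
  exact h0 τ

/-- The key step: if the holomorphic periods of `a` and the reflected periods of `b` cancel, then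
`a = 0` and `b = 0`. -/
theorem eq_zero_of_periods_cancel [NeZero N] (a b : CuspForm (Gamma0 N) 2)
    (h : ∀ γ : Gamma0 N, periodMap N a (Additive.ofMul γ)
      + periodMap N b (Additive.ofMul (jConjGamma0 N γ)) = 0) : a = 0 ∧ b = 0 := by
  have ha := nice_prim a
  have hb := nice_cprim b
  -- the two holomorphic combinations
  have h1 : Nice N (fun z => prim a z + cprim b z) := ha.add hb
  have h2 : Nice N (fun z => -Complex.I * (prim a z - cprim b z)) := (ha.sub hb).const_mul _
  have hc1 : ∀ z w : ℍ, prim a z + cprim b z = prim a w + cprim b w := by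
    refine const_of_re_invariant N _ h1.hol (fun γ hγ z => ?_) h1.per h1.lim
    have e1 := prim_smul_sub a ⟨γ, hγ⟩ z
    have e2 := cprim_smul_sub b ⟨γ, hγ⟩ z
    have e3 := h ⟨γ, hγ⟩
    simp only at e1 e2
    have : prim a (γ • z) + cprim b (γ • z) = (prim a z + cprim b z)
        + (conj (periodMap N b (Additive.ofMul (jConjGamma0 N ⟨γ, hγ⟩)))
          - periodMap N b (Additive.ofMul (jConjGamma0 N ⟨γ, hγ⟩))) := by
      linear_combination e1 + e2 + e3
    rw [this, add_re, sub_re, conj_re, sub_self, add_zero]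
  have hc2 : ∀ z w : ℍ, -Complex.I * (prim a z - cprim b z)
      = -Complex.I * (prim a w - cprim b w) := by
    refine const_of_re_invariant N _ h2.hol (fun γ hγ z => ?_) h2.per h2.lim
    have e1 := prim_smul_sub a ⟨γ, hγ⟩ z
    have e2 := cprim_smul_sub b ⟨γ, hγ⟩ z
    have e3 := h ⟨γ, hγ⟩
    simp only at e1 e2
    have : -Complex.I * (prim a (γ • z) - cprim b (γ • z))
        = -Complex.I * (prim a z - cprim b z)
          + Complex.I * (conj (periodMap N b (Additive.ofMul (jConjGamma0 N ⟨γ, hγ⟩)))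
            + periodMap N b (Additive.ofMul (jConjGamma0 N ⟨γ, hγ⟩))) := by
      linear_combination (-Complex.I) * e1 + Complex.I * e2 - Complex.I * e3
    rw [this, add_re, mul_re (Complex.I), Complex.I_re, Complex.I_im, add_im, conj_im]
    ring
  have hI : Complex.I ≠ 0 := Complex.I_ne_zero
  have hc2' : ∀ z w : ℍ, prim a z - cprim b z = prim a w - cprim b w := fun z w =>
    mul_left_cancel₀ (neg_ne_zero.mpr hI) (hc2 z w)
  have hpa : ∀ z w : ℍ, prim a z = prim a w := fun z w => by
    linear_combination (1 / 2 : ℂ) * hc1 z w + (1 / 2 : ℂ) * hc2' z w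
  have hpb : ∀ z w : ℍ, cprim b z = cprim b w := fun z w => by
    linear_combination (1 / 2 : ℂ) * hc1 z w - (1 / 2 : ℂ) * hc2' z w
  refine ⟨eq_zero_of_prim_const a hpa, eq_zero_of_prim_const b fun z w => ?_⟩
  have := hpb (refl z) (refl w)
  rw [cprim_apply, cprim_apply, refl_refl, refl_refl] at this
  exact (starRingEnd ℂ).injective this

/-- **E1.** The pair period map is injective. -/
theorem periodHomPair_injective (N : ℕ) [NeZero N] : Function.Injective (periodHomPair N) := by
  rw [injective_iff_map_eq_zero]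
  rintro ⟨f, g⟩ hfg
  have hγ : ∀ γ : Gamma0 N, periodMap N (f + g) (Additive.ofMul γ)
      + periodMap N (f - g) (Additive.ofMul (jConjGamma0 N γ)) = 0 := by
    intro γ
    have h1 := periodHomPair_apply N f g γ
    rw [hfg] at h1
    have e1 : periodMap N (f + g) = periodMap N f + periodMap N g := (pml N).map_add f g
    have e2 : periodMap N (f - g) = periodMap N f - periodMap N g := (pml N).map_sub f g
    rw [e1, e2, AddMonoidHom.add_apply, AddMonoidHom.sub_apply]
    rw [AddMonoidHom.zero_apply] at h1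
    linear_combination -h1
  obtain ⟨h1, h2⟩ := eq_zero_of_periods_cancel (f + g) (f - g) hγ
  have hf : f = 0 := by
    have : (2 : ℂ) • f = 0 := by
      have e : (2 : ℂ) • f = (f + g) + (f - g) := by rw [two_smul]; abel
      rw [e, h1, h2, add_zero]
    exact (smul_eq_zero.mp this).resolve_left two_ne_zero
  have hg : g = 0 := by
    rw [hf, zero_add] at h1
    exact h1
  rw [hf, hg]
  rfl

end Fermat.Agent.S21.E1
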