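import Mathlib
import Fermat.Prelude.Def_ModularCurve_PeriodHomPair
import Fermat.Prelude.Def_ModularCurve_GenusNumerics

set_option autoImplicit false

namespace Fermat.Agent.S21

open ModularCurve ModularCurve.Period CongruenceSubgroup UpperHalfPlane

open scoped MatrixGroups

/-- Final assembly of S21 (Eichler-Shimura) from its inputs: finite dimensionality and the
LOWER bound `g ≤ dim S₂(Γ₀(N))` (the existence half of S20), injectivity of the period map
(E1), periods of cusp forms are parabolic (E3), and the upper bound for the dimension of the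
space of parabolic homomorphisms (E2). -/
theorem result_of_lower_bound (N : ℕ) [NeZero N]
    (hfd : FiniteDimensional ℂ (CuspForm (Gamma0 N) 2))
    (hS20 : ModularCurve.genusFormula N ≤ (Module.finrank ℂ (CuspForm (Gamma0 N) 2) : ℚ))
    (hE1 : Function.Injective (periodHomPair N))
    (hE3 : LinearMap.range (periodHomPair N) ≤ parabolicHoms ℂ (Gamma0 N) ℂ)
    (hE2fd : FiniteDimensional ℂ (parabolicHoms ℂ (Gamma0 N) ℂ))
    (hE2 : (Module.finrank ℂ (parabolicHoms ℂ (Gamma0 N) ℂ) : ℚ) ≤ 2 * ModularCurve.genusFormula N) :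
    Function.Injective (ModularCurve.periodHomPair N)
      ∧ LinearMap.range (ModularCurve.periodHomPair N)
          = ModularCurve.Period.parabolicHoms ℂ (CongruenceSubgroup.Gamma0 N) ℂ := by
  refine ⟨hE1, ?_⟩
  have h1 : Module.finrank ℂ (LinearMap.range (periodHomPair N))
      = Module.finrank ℂ (CuspForm (Gamma0 N) 2 × CuspForm (Gamma0 N) 2) :=
    LinearMap.finrank_range_of_inj hE1
  have h2 : Module.finrank ℂ (CuspForm (Gamma0 N) 2 × CuspForm (Gamma0 N) 2)
      = 2 * Module.finrank ℂ (CuspForm (Gamma0 N) 2) := by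
    rw [Module.finrank_prod]; ring
  have h3 : Module.finrank ℂ (parabolicHoms ℂ (Gamma0 N) ℂ)
      ≤ Module.finrank ℂ (LinearMap.range (periodHomPair N)) := by
    rw [h1, h2]
    have : (Module.finrank ℂ (parabolicHoms ℂ (Gamma0 N) ℂ) : ℚ)
        ≤ ((2 * Module.finrank ℂ (CuspForm (Gamma0 N) 2) : ℕ) : ℚ) := by
      push_cast
      linarith
    exact_mod_cast this
  exact Submodule.eq_of_le_of_finrank_le hE3 h3

/-- Final assembly of S21 from S20 (dimension formula) and E1, E2, E3. -/
theorem result_of_inputs (N : ℕ) [NeZero N]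
    (hfd : FiniteDimensional ℂ (CuspForm (Gamma0 N) 2))
    (hS20 : (Module.finrank ℂ (CuspForm (Gamma0 N) 2) : ℚ) = ModularCurve.genusFormula N)
    (hE1 : Function.Injective (periodHomPair N))
    (hE3 : LinearMap.range (periodHomPair N) ≤ parabolicHoms ℂ (Gamma0 N) ℂ)
    (hE2fd : FiniteDimensional ℂ (parabolicHoms ℂ (Gamma0 N) ℂ))
    (hE2 : (Module.finrank ℂ (parabolicHoms ℂ (Gamma0 N) ℂ) : ℚ) ≤ 2 * ModularCurve.genusFormula N) :
    Function.Injective (ModularCurve.periodHomPair N)
      ∧ LinearMap.range (ModularCurve.periodHomPair N)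
          = ModularCurve.Period.parabolicHoms ℂ (CongruenceSubgroup.Gamma0 N) ℂ :=
  result_of_lower_bound N hfd hS20.ge hE1 hE3 hE2fd hE2

/-- The upper bound half of S20 from E1 and E2: `dim S₂(Γ₀(N)) ≤ g`. -/
theorem finrank_cuspForm_le (N : ℕ) [NeZero N]
    (hE1 : Function.Injective (periodHomPair N))
    (hE3 : LinearMap.range (periodHomPair N) ≤ parabolicHoms ℂ (Gamma0 N) ℂ)
    (hE2fd : FiniteDimensional ℂ (parabolicHoms ℂ (Gamma0 N) ℂ))
    (hE2 : (Module.finrank ℂ (parabolicHoms ℂ (Gamma0 N) ℂ) : ℚ) ≤ 2 * ModularCurve.genusFormula N) :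
    (Module.finrank ℂ (CuspForm (Gamma0 N) 2) : ℚ) ≤ ModularCurve.genusFormula N := by
  have h1 : Module.finrank ℂ (LinearMap.range (periodHomPair N))
      = Module.finrank ℂ (CuspForm (Gamma0 N) 2 × CuspForm (Gamma0 N) 2) :=
    LinearMap.finrank_range_of_inj hE1
  have hfd : FiniteDimensional ℂ (CuspForm (Gamma0 N) 2 × CuspForm (Gamma0 N) 2) := by
    have : FiniteDimensional ℂ (LinearMap.range (periodHomPair N)) :=
      Submodule.finiteDimensional_of_le hE3
    exact Module.Finite.of_injective (periodHomPair N).rangeRestrict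
      (by
        intro x y hxy
        apply hE1
        exact congrArg Subtype.val hxy)
  have hfd1 : FiniteDimensional ℂ (CuspForm (Gamma0 N) 2) :=
    Module.Finite.of_injective (LinearMap.inl ℂ (CuspForm (Gamma0 N) 2) (CuspForm (Gamma0 N) 2))
      LinearMap.inl_injective
  have h2 : Module.finrank ℂ (CuspForm (Gamma0 N) 2 × CuspForm (Gamma0 N) 2)
      = 2 * Module.finrank ℂ (CuspForm (Gamma0 N) 2) := by
    rw [Module.finrank_prod]; ring
  have h3 : Module.finrank ℂ (LinearMap.range (periodHomPair N))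
      ≤ Module.finrank ℂ (parabolicHoms ℂ (Gamma0 N) ℂ) :=
    Submodule.finrank_mono hE3
  have h4 : ((2 * Module.finrank ℂ (CuspForm (Gamma0 N) 2) : ℕ) : ℚ)
      ≤ (Module.finrank ℂ (parabolicHoms ℂ (Gamma0 N) ℂ) : ℚ) := by
    rw [← h2, ← h1]
    exact_mod_cast h3
  push_cast at h4
  linarith

end Fermat.Agent.S21
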